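/-
S41 / C4 [CSP] (helper39, monolithic spare of helper11's proof): arithmetic of `A = ℤ[1/q]` inside `ℚ`
in the landed vocabulary `IsAway`, `IsCongZero`.
-/
import Fermat.Agent.S41.Ihara95.Core

set_option autoImplicit false

namespace Fermat.Agent.S41.CSP39

open Fermat.Agent.S41.Amalgam95 Fermat.Agent.S41.Ihara95

variable {q M : ℕ} {x y : ℚ}

/-! ### `IsAway` -/

lemma isAway_natCast (q n : ℕ) : IsAway q (n : ℚ) := by
  simpa using IsAway.of_int (q := q) (n : ℤ)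

lemma isAway_pow (hx : IsAway q x) (n : ℕ) : IsAway q (x ^ n) := by
  induction n with
  | zero => simpa using IsAway.one (q := q)
  | succ n ih => rw [pow_succ]; exact ih.mul hx

lemma isAway_inv_q_pow (hq : q ≠ 0) (n : ℕ) : IsAway q (((q : ℚ) ^ n)⁻¹) := by
  have hq' : (q : ℚ) ≠ 0 := by exact_mod_cast hq
  exact ⟨n, 1, by push_cast; field_simp⟩

/-! ### `IsCongZero` -/

lemma cz_zero : IsCongZero q M 0 := ⟨0, IsAway.zero, by ring⟩

lemma cz_M_mul (hx : IsAway q x) : IsCongZero q M ((M : ℚ) * x) := ⟨x, hx, rfl⟩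

lemma cz_self : IsCongZero q M (M : ℚ) := ⟨1, IsAway.one, by ring⟩

lemma cz_add (hx : IsCongZero q M x) (hy : IsCongZero q M y) : IsCongZero q M (x + y) := by
  obtain ⟨r, hr, rfl⟩ := hx
  obtain ⟨s, hs, rfl⟩ := hy
  exact ⟨r + s, hr.add hs, by ring⟩

lemma cz_neg (hx : IsCongZero q M x) : IsCongZero q M (-x) := by
  obtain ⟨r, hr, rfl⟩ := hx
  exact ⟨-r, hr.neg, by ring⟩

lemma cz_sub (hx : IsCongZero q M x) (hy : IsCongZero q M y) : IsCongZero q M (x - y) := by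
  rw [sub_eq_add_neg]; exact cz_add hx (cz_neg hy)

lemma cz_mul_left (hx : IsAway q x) (hy : IsCongZero q M y) : IsCongZero q M (x * y) := by
  obtain ⟨s, hs, rfl⟩ := hy
  exact ⟨x * s, hx.mul hs, by ring⟩

lemma cz_mul_right (hx : IsCongZero q M x) (hy : IsAway q y) : IsCongZero q M (x * y) := by
  rw [mul_comm]; exact cz_mul_left hy hx

lemma cz_isAway (hx : IsCongZero q M x) : IsAway q x := by
  obtain ⟨r, hr, rfl⟩ := hx
  exact (isAway_natCast q M).mul hr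

lemma cz_of_dvd {M' : ℕ} (h : M ∣ M') (hx : IsCongZero q M' x) : IsCongZero q M x := by
  obtain ⟨k, rfl⟩ := h
  obtain ⟨r, hr, rfl⟩ := hx
  exact ⟨k * r, (isAway_natCast q k).mul hr, by push_cast; ring⟩

lemma cz_mul_mul {K : ℕ} (hx : IsCongZero q M x) : IsCongZero q (M * K) ((K : ℚ) * x) := by
  obtain ⟨r, hr, rfl⟩ := hx
  exact ⟨r, hr, by push_cast; ring⟩

lemma cz_div {K : ℕ} (hK : K ≠ 0) (hx : IsCongZero q (M * K) x) : IsCongZero q M (x / K) := by
  obtain ⟨r, hr, rfl⟩ := hx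
  have hK' : (K : ℚ) ≠ 0 := by exact_mod_cast hK
  exact ⟨r, hr, by push_cast; field_simp⟩

lemma cz_intCast_of_dvd (n : ℤ) (h : (M : ℤ) ∣ n) : IsCongZero q M (n : ℚ) :=
  isCongZero_of_int_dvd q M n h

/-- sums of elements `≡ 1`: `x ≡ 1`, `y ≡ 1` mod `M A` ⟹ `x y ≡ 1`. -/
lemma cz_mul_sub_one (hx : IsCongZero q M (x - 1)) (hy : IsCongZero q M (y - 1)) :
    IsCongZero q M (x * y - 1) := by
  have h : x * y - 1 = (x - 1) * (y - 1) + (x - 1) + (y - 1) := by ring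
  rw [h]
  exact cz_add (cz_add (cz_mul_left (cz_isAway hx) hy) hx) hy

lemma isAway_of_cz_sub_one (hx : IsCongZero q M (x - 1)) : IsAway q x := by
  have : x = (x - 1) + 1 := by ring
  rw [this]; exact (cz_isAway hx).add IsAway.one

lemma cz_pow_sub_one (hx : IsCongZero q M (x - 1)) (n : ℕ) : IsCongZero q M (x ^ n - 1) := by
  induction n with
  | zero => simpa using cz_zero (q := q) (M := M)
  | succ n ih => rw [pow_succ]; exact cz_mul_sub_one ih hx

/-- congruences can be multiplied. -/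
lemma cz_mul_sub_mul {x' y' : ℚ} (hx : IsAway q x) (hy' : IsAway q y')
    (h1 : IsCongZero q M (x - x')) (h2 : IsCongZero q M (y - y')) :
    IsCongZero q M (x * y - x' * y') := by
  have h : x * y - x' * y' = x * (y - y') + (x - x') * y' := by ring
  rw [h]
  exact cz_add (cz_mul_left hx h2) (cz_mul_right h1 hy')

lemma cz_pow_sub_pow {x' : ℚ} (hx : IsAway q x) (hx' : IsAway q x')
    (h : IsCongZero q M (x - x')) (n : ℕ) : IsCongZero q M (x ^ n - x' ^ n) := by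
  induction n with
  | zero => simpa using cz_zero (q := q) (M := M)
  | succ n ih =>
    rw [pow_succ, pow_succ]
    exact cz_mul_sub_mul (isAway_pow hx n) hx' ih h

/-! ### integers versus `M A` -/

/-- an integer lying in `M ℤ[1/q]` is divisible by `M` (`gcd(M,q) = 1`). -/
lemma dvd_of_cz_intCast (hMq : Nat.Coprime M q) (n : ℤ) (h : IsCongZero q M (n : ℚ)) :
    (M : ℤ) ∣ n := by
  obtain ⟨r, ⟨j, m₀, hr⟩, hn⟩ := h
  have h1 : (n : ℚ) * (q : ℚ) ^ j = (M : ℚ) * m₀ := by rw [hn, ← hr]; ring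
  have h2 : n * (q : ℤ) ^ j = (M : ℤ) * m₀ := by exact_mod_cast h1
  have hcop : IsCoprime (M : ℤ) ((q : ℤ) ^ j) :=
    (Nat.isCoprime_iff_coprime.2 hMq).pow_right
  exact hcop.dvd_of_dvd_mul_right ⟨m₀, h2⟩

/-- **NAT-lift**: every `x ∈ ℤ[1/q]` is congruent to an integer modulo `M ℤ[1/q]`. -/
lemma exists_int_cz_sub (hMq : Nat.Coprime M q) (hx : IsAway q x) :
    ∃ z : ℤ, IsCongZero q M (x - z) := by
  have hx0 := hx
  obtain ⟨n, m₀, hxm⟩ := hx
  obtain ⟨u, v, huv⟩ : IsCoprime (q : ℤ) (M : ℤ) := (Nat.isCoprime_iff_coprime.2 hMq).symm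
  -- `(u q)^n ≡ 1 mod M`
  have hdvd : (M : ℤ) ∣ (u * q) ^ n - 1 := by
    have h1 : u * q - 1 ∣ (u * q) ^ n - 1 ^ n := sub_dvd_pow_sub_pow _ _ n
    rw [one_pow] at h1
    refine dvd_trans ⟨-v, ?_⟩ h1
    linear_combination huv
  obtain ⟨w, hw⟩ := hdvd
  refine ⟨m₀ * u ^ n, ⟨-(x * w), (hx0.mul (IsAway.of_int w)).neg, ?_⟩⟩
  have hw' : ((u : ℚ) * q) ^ n - 1 = (M : ℚ) * w := by exact_mod_cast hw
  push_cast
  rw [← hxm]
  have : x * (q : ℚ) ^ n * (u : ℚ) ^ n = x * ((u : ℚ) * q) ^ n := by rw [mul_pow]; ring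
  rw [this]
  linear_combination (-x) * hw'

/-- natural-number version of the NAT-lift. -/
lemma exists_nat_cz_sub (hM : 0 < M) (hMq : Nat.Coprime M q) (hx : IsAway q x) :
    ∃ i : ℕ, IsCongZero q M (x - i) := by
  obtain ⟨z, hz⟩ := exists_int_cz_sub hMq hx
  have hM' : (0 : ℤ) < M := by exact_mod_cast hM
  refine ⟨(z % M).toNat, ?_⟩
  have h1 : ((z % M).toNat : ℤ) = z % M := Int.toNat_of_nonneg (Int.emod_nonneg _ hM'.ne')
  have h2 : (((z % M).toNat : ℕ) : ℚ) = ((z % M : ℤ) : ℚ) := by exact_mod_cast h1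
  rw [h2]
  have h3 : x - ((z % M : ℤ) : ℚ) = (x - z) + ((z - z % M : ℤ) : ℚ) := by push_cast; ring
  rw [h3]
  refine cz_add hz (cz_intCast_of_dvd _ ?_)
  exact Int.dvd_self_sub_emod

end Fermat.Agent.S41.CSP39
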