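/-
S41 / C4 [CSP] (helper39, monolithic spare): matrices in `SL(2,ℚ)`, principal congruence subgroups of
`SL(2, ℤ[1/q])`, par-homs.
-/
import Fermat.Agent.S41.CSP39.Arith

set_option autoImplicit false
set_option linter.unusedSimpArgs false

namespace Fermat.Agent.S41.CSP39

open Matrix Fermat.Agent.S41.Amalgam95 Fermat.Agent.S41.Ihara95

/-! ### elementary matrices -/

/-- `u(t) = [[1,t],[0,1]]` -/
def U (t : ℚ) : SLQ := mkQ 1 t 0 1 (by ring)
/-- `l(t) = [[1,0],[t,1]]` -/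
def Lo (t : ℚ) : SLQ := mkQ 1 0 t 1 (by ring)
/-- `w = [[0,1],[-1,0]]` -/
def Wm : SLQ := mkQ 0 1 (-1) 0 (by ring)
/-- `h(e) = diag(e, 1/e)` -/
def Hd (e : ℚ) (he : e ≠ 0) : SLQ := mkQ e 0 0 e⁻¹ (by
  rw [mul_inv_cancel₀ he]; ring)

@[simp] lemma U_00 (t : ℚ) : U t 0 0 = 1 := rfl
@[simp] lemma U_01 (t : ℚ) : U t 0 1 = t := rfl
@[simp] lemma U_10 (t : ℚ) : U t 1 0 = 0 := rfl
@[simp] lemma U_11 (t : ℚ) : U t 1 1 = 1 := rfl
@[simp] lemma Lo_00 (t : ℚ) : Lo t 0 0 = 1 := rfl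
@[simp] lemma Lo_01 (t : ℚ) : Lo t 0 1 = 0 := rfl
@[simp] lemma Lo_10 (t : ℚ) : Lo t 1 0 = t := rfl
@[simp] lemma Lo_11 (t : ℚ) : Lo t 1 1 = 1 := rfl
@[simp] lemma Wm_00 : Wm 0 0 = 0 := rfl
@[simp] lemma Wm_01 : Wm 0 1 = 1 := rfl
@[simp] lemma Wm_10 : Wm 1 0 = -1 := rfl
@[simp] lemma Wm_11 : Wm 1 1 = 0 := rfl
@[simp] lemma Hd_00 (e : ℚ) (he : e ≠ 0) : Hd e he 0 0 = e := rfl
@[simp] lemma Hd_01 (e : ℚ) (he : e ≠ 0) : Hd e he 0 1 = 0 := rfl
@[simp] lemma Hd_10 (e : ℚ) (he : e ≠ 0) : Hd e he 1 0 = 0 := rfl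
@[simp] lemma Hd_11 (e : ℚ) (he : e ≠ 0) : Hd e he 1 1 = e⁻¹ := rfl

lemma U_inv (t : ℚ) : (U t)⁻¹ = U (-t) := by
  apply ext_entries <;> simp [inv_00, inv_01, inv_10, inv_11]
lemma Lo_inv (t : ℚ) : (Lo t)⁻¹ = Lo (-t) := by
  apply ext_entries <;> simp [inv_00, inv_01, inv_10, inv_11]

/-! ### conjugation formulas -/

section conj
variable (x g : SLQ)

lemma conj_00 : (x * g * x⁻¹) 0 0 =
    (x 0 0 * g 0 0 + x 0 1 * g 1 0) * x 1 1 - (x 0 0 * g 0 1 + x 0 1 * g 1 1) * x 1 0 := by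
  rw [mul_00, mul_00, mul_01, inv_00, inv_10]; ring
lemma conj_01 : (x * g * x⁻¹) 0 1 =
    -(x 0 0 * g 0 0 + x 0 1 * g 1 0) * x 0 1 + (x 0 0 * g 0 1 + x 0 1 * g 1 1) * x 0 0 := by
  rw [mul_01, mul_00, mul_01, inv_01, inv_11]; ring
lemma conj_10 : (x * g * x⁻¹) 1 0 =
    (x 1 0 * g 0 0 + x 1 1 * g 1 0) * x 1 1 - (x 1 0 * g 0 1 + x 1 1 * g 1 1) * x 1 0 := by
  rw [mul_10, mul_10, mul_11, inv_00, inv_10]; ring
lemma conj_11 : (x * g * x⁻¹) 1 1 =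
    -(x 1 0 * g 0 0 + x 1 1 * g 1 0) * x 0 1 + (x 1 0 * g 0 1 + x 1 1 * g 1 1) * x 0 0 := by
  rw [mul_11, mul_10, mul_11, inv_01, inv_11]; ring

lemma trace_conj : (x * g * x⁻¹) 0 0 + (x * g * x⁻¹) 1 1 = g 0 0 + g 1 1 := by
  rw [conj_00, conj_11]
  have := det_eq x
  linear_combination (g 0 0 + g 1 1) * this

end conj

/-! ### matrices with entries in `ℤ[1/q]`, principal congruence subgroups -/

/-- all entries in `ℤ[1/q]` -/
def IsAwayMat (q : ℕ) (x : SLQ) : Prop :=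
  IsAway q (x 0 0) ∧ IsAway q (x 0 1) ∧ IsAway q (x 1 0) ∧ IsAway q (x 1 1)

variable {q M : ℕ}

lemma isAwayMat_U {t : ℚ} (ht : IsAway q t) : IsAwayMat q (U t) :=
  ⟨IsAway.one, ht, IsAway.zero, IsAway.one⟩
lemma isAwayMat_Lo {t : ℚ} (ht : IsAway q t) : IsAwayMat q (Lo t) :=
  ⟨IsAway.one, IsAway.zero, ht, IsAway.one⟩
lemma isAwayMat_Wm : IsAwayMat q Wm :=
  ⟨IsAway.zero, IsAway.one, IsAway.one.neg, IsAway.zero⟩
lemma isAwayMat_inv {x : SLQ} (hx : IsAwayMat q x) : IsAwayMat q x⁻¹ := by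
  obtain ⟨h00, h01, h10, h11⟩ := hx
  refine ⟨?_, ?_, ?_, ?_⟩
  · rw [inv_00]; exact h11
  · rw [inv_01]; exact h01.neg
  · rw [inv_10]; exact h10.neg
  · rw [inv_11]; exact h00

lemma IsPrincipal.isAwayMat {g : SLQ} (hg : IsPrincipal q M g) : IsAwayMat q g :=
  ⟨isAway_of_cz_sub_one hg.1, cz_isAway hg.2.1, cz_isAway hg.2.2.1, isAway_of_cz_sub_one hg.2.2.2⟩

lemma isPrincipal_one : IsPrincipal q M (1 : SLQ) := by
  refine ⟨?_, ?_, ?_, ?_⟩
  · rw [one_00, sub_self]; exact cz_zero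
  · rw [one_01]; exact cz_zero
  · rw [one_10]; exact cz_zero
  · rw [one_11, sub_self]; exact cz_zero

lemma IsPrincipal.mul {g h : SLQ} (hg : IsPrincipal q M g) (hh : IsPrincipal q M h) :
    IsPrincipal q M (g * h) := by
  obtain ⟨g00, g01, g10, g11⟩ := hg
  obtain ⟨h00, h01, h10, h11⟩ := hh
  have ag00 := isAway_of_cz_sub_one g00
  have ag11 := isAway_of_cz_sub_one g11
  have ah00 := isAway_of_cz_sub_one h00
  have ah11 := isAway_of_cz_sub_one h11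
  refine ⟨?_, ?_, ?_, ?_⟩
  · rw [mul_00]
    have : g 0 0 * h 0 0 + g 0 1 * h 1 0 - 1 = (g 0 0 * h 0 0 - 1) + g 0 1 * h 1 0 := by ring
    rw [this]
    exact cz_add (cz_mul_sub_one g00 h00) (cz_mul_left (cz_isAway g01) h10)
  · rw [mul_01]
    exact cz_add (cz_mul_left ag00 h01) (cz_mul_right g01 ah11)
  · rw [mul_10]
    exact cz_add (cz_mul_right g10 ah00) (cz_mul_left ag11 h10)
  · rw [mul_11]
    have : g 1 0 * h 0 1 + g 1 1 * h 1 1 - 1 = g 1 0 * h 0 1 + (g 1 1 * h 1 1 - 1) := by ring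
    rw [this]
    exact cz_add (cz_mul_left (cz_isAway g10) h01) (cz_mul_sub_one g11 h11)

lemma IsPrincipal.inv {g : SLQ} (hg : IsPrincipal q M g) : IsPrincipal q M g⁻¹ := by
  obtain ⟨g00, g01, g10, g11⟩ := hg
  refine ⟨?_, ?_, ?_, ?_⟩
  · rw [inv_00]; exact g11
  · rw [inv_01]; exact cz_neg g01
  · rw [inv_10]; exact cz_neg g10
  · rw [inv_11]; exact g00

lemma IsPrincipal.of_dvd {M' : ℕ} (h : M ∣ M') {g : SLQ} (hg : IsPrincipal q M' g) :
    IsPrincipal q M g :=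
  ⟨cz_of_dvd h hg.1, cz_of_dvd h hg.2.1, cz_of_dvd h hg.2.2.1, cz_of_dvd h hg.2.2.2⟩

/-- the principal congruence subgroup is normalised by `SL(2, ℤ[1/q])`. -/
lemma IsPrincipal.conj {x g : SLQ} (hx : IsAwayMat q x) (hg : IsPrincipal q M g) :
    IsPrincipal q M (x * g * x⁻¹) := by
  obtain ⟨x00, x01, x10, x11⟩ := hx
  obtain ⟨g00, g01, g10, g11⟩ := hg
  have hdet := det_eq x
  refine ⟨?_, ?_, ?_, ?_⟩
  · rw [conj_00]
    have : (x 0 0 * g 0 0 + x 0 1 * g 1 0) * x 1 1 - (x 0 0 * g 0 1 + x 0 1 * g 1 1) * x 1 0 - 1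
        = (x 0 0 * x 1 1) * (g 0 0 - 1) + (x 0 1 * x 1 1) * g 1 0
          - ((x 0 0 * x 1 0) * g 0 1 + (x 0 1 * x 1 0) * (g 1 1 - 1)) := by
      linear_combination hdet
    rw [this]
    exact cz_sub (cz_add (cz_mul_left (x00.mul x11) g00) (cz_mul_left (x01.mul x11) g10))
      (cz_add (cz_mul_left (x00.mul x10) g01) (cz_mul_left (x01.mul x10) g11))
  · rw [conj_01]
    have : -(x 0 0 * g 0 0 + x 0 1 * g 1 0) * x 0 1 + (x 0 0 * g 0 1 + x 0 1 * g 1 1) * x 0 0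
        = (x 0 0 * x 0 0) * g 0 1 + (x 0 0 * x 0 1) * (g 1 1 - 1)
          - ((x 0 0 * x 0 1) * (g 0 0 - 1) + (x 0 1 * x 0 1) * g 1 0) := by ring
    rw [this]
    exact cz_sub (cz_add (cz_mul_left (x00.mul x00) g01) (cz_mul_left (x00.mul x01) g11))
      (cz_add (cz_mul_left (x00.mul x01) g00) (cz_mul_left (x01.mul x01) g10))
  · rw [conj_10]
    have : (x 1 0 * g 0 0 + x 1 1 * g 1 0) * x 1 1 - (x 1 0 * g 0 1 + x 1 1 * g 1 1) * x 1 0
        = (x 1 0 * x 1 1) * (g 0 0 - 1) + (x 1 1 * x 1 1) * g 1 0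
          - ((x 1 0 * x 1 0) * g 0 1 + (x 1 0 * x 1 1) * (g 1 1 - 1)) := by ring
    rw [this]
    exact cz_sub (cz_add (cz_mul_left (x10.mul x11) g00) (cz_mul_left (x11.mul x11) g10))
      (cz_add (cz_mul_left (x10.mul x10) g01) (cz_mul_left (x10.mul x11) g11))
  · rw [conj_11]
    have : -(x 1 0 * g 0 0 + x 1 1 * g 1 0) * x 0 1 + (x 1 0 * g 0 1 + x 1 1 * g 1 1) * x 0 0 - 1
        = (x 0 0 * x 1 0) * g 0 1 + (x 0 0 * x 1 1) * (g 1 1 - 1)
          - ((x 0 1 * x 1 0) * (g 0 0 - 1) + (x 0 1 * x 1 1) * g 1 0) := by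
      linear_combination hdet
    rw [this]
    exact cz_sub (cz_add (cz_mul_left (x00.mul x10) g01) (cz_mul_left (x00.mul x11) g11))
      (cz_add (cz_mul_left (x01.mul x10) g00) (cz_mul_left (x01.mul x11) g10))

lemma IsPrincipal.conj' {x g : SLQ} (hx : IsAwayMat q x) (hg : IsPrincipal q M g) :
    IsPrincipal q M (x⁻¹ * g * x) := by
  have := IsPrincipal.conj (isAwayMat_inv hx) hg
  rwa [inv_inv] at this

lemma isPrincipal_U {t : ℚ} (ht : IsCongZero q M t) : IsPrincipal q M (U t) := by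
  refine ⟨?_, ?_, ?_, ?_⟩ <;> simp [cz_zero, ht]
lemma isPrincipal_Lo {t : ℚ} (ht : IsCongZero q M t) : IsPrincipal q M (Lo t) := by
  refine ⟨?_, ?_, ?_, ?_⟩ <;> simp [cz_zero, ht]

lemma isPrincipal_Hd {e : ℚ} (he : e ≠ 0) (h1 : IsCongZero q M (e - 1)) (h2 : IsAway q e⁻¹) :
    IsPrincipal q M (Hd e he) := by
  refine ⟨by simpa using h1, by simp [cz_zero], by simp [cz_zero], ?_⟩
  have : (Hd e he) 1 1 - 1 = -((e - 1) * e⁻¹) := by
    rw [Hd_11]; field_simp; ring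
  rw [this]
  exact cz_neg (cz_mul_right h1 h2)

/-! ### par-homs -/

/-- a *par-hom of level `M`*: additive on the principal congruence subgroup `Γ(M)(ℤ[1/q])` and zero
on its unipotent (= trace `2`) elements. -/
structure IsParHom {V : Type*} [AddCommGroup V] (q M : ℕ) (Ψ : SLQ → V) : Prop where
  map_mul : ∀ g h, IsPrincipal q M g → IsPrincipal q M h → Ψ (g * h) = Ψ g + Ψ h
  unip : ∀ g, IsPrincipal q M g → g 0 0 + g 1 1 = 2 → Ψ g = 0

namespace IsParHom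

variable {V : Type*} [AddCommGroup V] {Ψ : SLQ → V}

lemma map_one (h : IsParHom q M Ψ) : Ψ 1 = 0 :=
  h.unip 1 isPrincipal_one (by rw [one_00, one_11]; norm_num)

lemma map_inv (h : IsParHom q M Ψ) {g : SLQ} (hg : IsPrincipal q M g) : Ψ g⁻¹ = -Ψ g := by
  have := h.map_mul g g⁻¹ hg (IsPrincipal.inv hg)
  rw [mul_inv_cancel, h.map_one] at this
  exact eq_neg_of_add_eq_zero_right this.symm

/-- multiplying by a unipotent of `Γ(M)` on the left does not change the value. -/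
lemma unip_mul (h : IsParHom q M Ψ) {n g : SLQ} (hn : IsPrincipal q M n)
    (hn2 : n 0 0 + n 1 1 = 2) (hg : IsPrincipal q M g) : Ψ (n * g) = Ψ g := by
  rw [h.map_mul n g hn hg, h.unip n hn hn2, zero_add]

lemma mul_unip (h : IsParHom q M Ψ) {n g : SLQ} (hn : IsPrincipal q M n)
    (hn2 : n 0 0 + n 1 1 = 2) (hg : IsPrincipal q M g) : Ψ (g * n) = Ψ g := by
  rw [h.map_mul g n hg hn, h.unip n hn hn2, add_zero]

/-- **same first column ⟹ same value**. -/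
lemma col (h : IsParHom q M Ψ) {g g' : SLQ} (hg : IsPrincipal q M g) (hg' : IsPrincipal q M g')
    (h0 : g' 0 0 = g 0 0) (h1 : g' 1 0 = g 1 0) : Ψ g' = Ψ g := by
  have hn : IsPrincipal q M (g⁻¹ * g') := IsPrincipal.mul (IsPrincipal.inv hg) hg'
  have hdg := det_eq g
  have h00 : (g⁻¹ * g') 0 0 = 1 := by
    rw [mul_00, inv_00, inv_01, h0, h1]; linear_combination hdg
  have h10 : (g⁻¹ * g') 1 0 = 0 := by
    rw [mul_10, inv_10, inv_11, h0, h1]; ring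
  have hdet := det_eq (g⁻¹ * g')
  rw [h00, h10] at hdet
  have h11 : (g⁻¹ * g') 1 1 = 1 := by linear_combination hdet
  have : g' = g * (g⁻¹ * g') := by group
  rw [this, h.mul_unip hn (by rw [h00, h11]; norm_num) hg]

/-- transport of a par-hom along conjugation by an element of `SL(2,ℚ)`. -/
lemma conj {M' : ℕ} (h : IsParHom q M Ψ) (x : SLQ)
    (hx : ∀ g, IsPrincipal q M' g → IsPrincipal q M (x * g * x⁻¹)) :
    IsParHom q M' (fun g => Ψ (x * g * x⁻¹)) where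
  map_mul g g' hg hg' := by
    have : x * (g * g') * x⁻¹ = (x * g * x⁻¹) * (x * g' * x⁻¹) := by group
    show Ψ (x * (g * g') * x⁻¹) = _
    rw [this]
    exact h.map_mul _ _ (hx g hg) (hx g' hg')
  unip g hg hg2 := h.unip _ (hx g hg) (by rw [trace_conj]; exact hg2)

/-- the difference of two par-homs is a par-hom. -/
lemma sub {Ψ' : SLQ → V} (h : IsParHom q M Ψ) (h' : IsParHom q M Ψ') :
    IsParHom q M (fun g => Ψ g - Ψ' g) where
  map_mul g g' hg hg' := by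
    show Ψ (g * g') - Ψ' (g * g') = _
    rw [h.map_mul g g' hg hg', h'.map_mul g g' hg hg']; abel
  unip g hg hg2 := by
    show Ψ g - Ψ' g = 0
    rw [h.unip g hg hg2, h'.unip g hg hg2, sub_zero]

lemma of_dvd {M' : ℕ} (hd : M ∣ M') (h : IsParHom q M Ψ) : IsParHom q M' Ψ where
  map_mul g g' hg hg' := h.map_mul g g' (IsPrincipal.of_dvd hd hg) (IsPrincipal.of_dvd hd hg')
  unip g hg hg2 := h.unip g (IsPrincipal.of_dvd hd hg) hg2

end IsParHom

/-! ### (A1): the torus -/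

/-- `h(e) = [u(x) l(M) u(-x)] · u(M x²/e) · l(-M e)` with `e = 1 + M x`. -/
lemma Hd_eq_prod (M : ℕ) (x e : ℚ) (he : e ≠ 0) (hex : e = 1 + M * x) :
    Hd e he = (U x * Lo M * (U x)⁻¹) * U (M * x ^ 2 / e) * Lo (-(M * e)) := by
  rw [U_inv]
  apply ext_entries
  · simp only [mul_00, mul_01, mul_10, mul_11, U_00, U_01, U_10, U_11, Lo_00, Lo_01, Lo_10,
      Lo_11, Hd_00]
    field_simp
    rw [hex]; ring
  · simp only [mul_00, mul_01, mul_10, mul_11, U_00, U_01, U_10, U_11, Lo_00, Lo_01, Lo_10,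
      Lo_11, Hd_01]
    field_simp
    rw [hex]; ring
  · simp only [mul_00, mul_01, mul_10, mul_11, U_00, U_01, U_10, U_11, Lo_00, Lo_01, Lo_10,
      Lo_11, Hd_10]
    field_simp
    rw [hex]; ring
  · simp only [mul_00, mul_01, mul_10, mul_11, U_00, U_01, U_10, U_11, Lo_00, Lo_01, Lo_10,
      Lo_11, Hd_11]
    field_simp
    rw [hex]; ring

/-- **(A1)** a par-hom kills `h(e)` for every unit `e ≡ 1 mod M`. -/
lemma IsParHom.map_Hd {V : Type*} [AddCommGroup V] {Ψ : SLQ → V} (h : IsParHom q M Ψ)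
    {e : ℚ} (he : e ≠ 0) (h1 : IsCongZero q M (e - 1)) (h2 : IsAway q e⁻¹) :
    Ψ (Hd e he) = 0 := by
  obtain ⟨x, hx, hex⟩ := h1
  have hex' : e = 1 + M * x := by linear_combination hex
  rw [Hd_eq_prod M x e he hex']
  have p1 : IsPrincipal q M (U x * Lo M * (U x)⁻¹) :=
    IsPrincipal.conj (isAwayMat_U hx) (isPrincipal_Lo cz_self)
  have t1 : (U x * Lo M * (U x)⁻¹) 0 0 + (U x * Lo M * (U x)⁻¹) 1 1 = 2 := by
    rw [trace_conj]; simp; norm_num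
  have p2 : IsPrincipal q M (U (M * x ^ 2 / e)) := by
    apply isPrincipal_U
    have : (M : ℚ) * x ^ 2 / e = M * (x ^ 2 * e⁻¹) := by field_simp
    rw [this]
    exact cz_M_mul ((isAway_pow hx 2).mul h2)
  have p3 : IsPrincipal q M (Lo (-(M * e))) := by
    apply isPrincipal_Lo
    have hea : IsAway q e := by
      rw [hex']; exact IsAway.one.add ((isAway_natCast q M).mul hx)
    exact cz_neg (cz_M_mul hea)
  rw [h.map_mul _ _ (IsPrincipal.mul p1 p2) p3, h.map_mul _ _ p1 p2, h.unip _ p1 t1,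
    h.unip _ p2 (by simp; norm_num), h.unip _ p3 (by simp; norm_num)]
  simp

end Fermat.Agent.S41.CSP39
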