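/-
S41 / C4 [CSP] (helper39, monolithic spare): the number theory of step (A3).
-/
import Mathlib
import Fermat.Agent.S41.CSP39.Arith

set_option autoImplicit false

namespace Fermat.Agent.S41.CSP39

open Fermat.Agent.S41.Amalgam95 Fermat.Agent.S41.Ihara95

/-- `M`-primary decomposition of a nonzero natural number. -/
lemma exists_primary_decomp (M : ℕ) : ∀ X : ℕ, X ≠ 0 →
    ∃ L R : ℕ, X = L * R ∧ Nat.Coprime R M ∧ ∀ p : ℕ, p.Prime → p ∣ L → p ∣ M := by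
  intro X
  induction X using Nat.strong_induction_on with
  | _ X ih =>
    intro hX
    by_cases hc : Nat.Coprime X M
    · refine ⟨1, X, by ring, hc, fun p hp h => ?_⟩
      exact absurd (Nat.dvd_one.1 h) hp.ne_one
    · obtain ⟨p, hp, hpX, hpM⟩ := Nat.Prime.not_coprime_iff_dvd.1 hc
      obtain ⟨X', rfl⟩ := hpX
      have hX' : X' ≠ 0 := by rintro rfl; simp at hX
      have hlt : X' < p * X' := by nlinarith [hp.two_le, Nat.pos_of_ne_zero hX']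
      obtain ⟨L, R, hLR, hR, hL⟩ := ih X' hlt hX'
      refine ⟨p * L, R, by rw [hLR]; ring, hR, ?_⟩
      intro r hr hrd
      rcases (Nat.Prime.dvd_mul hr).1 hrd with h | h
      · rwa [(Nat.prime_dvd_prime_iff_eq hr hp).1 h]
      · exact hL r hr h

/-- the geometric sum `∑_{i<j} E^i` is `≡ j` modulo any divisor of `E - 1`. -/
lemma dvd_geom_sum_sub (M E : ℤ) (h : M ∣ E - 1) (j : ℕ) :
    M ∣ (∑ i ∈ Finset.range j, E ^ i) - j := by
  have : (∑ i ∈ Finset.range j, E ^ i) - j = ∑ i ∈ Finset.range j, (E ^ i - 1) := by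
    rw [Finset.sum_sub_distrib]; simp
  rw [this]
  refine Finset.dvd_sum fun i _ => ?_
  have h1 : E - 1 ∣ E ^ i - 1 ^ i := sub_dvd_pow_sub_pow _ _ i
  rw [one_pow] at h1
  exact dvd_trans h h1

/-- Dirichlet + CRT with two coprime moduli (integer residues). -/
lemma exists_prime_two_moduli (B : ℕ) {m₁ m₂ : ℕ} (h₁ : m₁ ≠ 0) (h₂ : m₂ ≠ 0)
    (hcop : Nat.Coprime m₁ m₂) {r₁ r₂ : ℤ} (hr₁ : IsCoprime r₁ (m₁ : ℤ))
    (hr₂ : IsCoprime r₂ (m₂ : ℤ)) :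
    ∃ p > B, p.Prime ∧ (p : ℤ) ≡ r₁ [ZMOD m₁] ∧ (p : ℤ) ≡ r₂ [ZMOD m₂] := by
  obtain ⟨α, β, hαβ⟩ : IsCoprime (m₁ : ℤ) (m₂ : ℤ) := Nat.isCoprime_iff_coprime.2 hcop
  set ρ : ℤ := r₁ * (β * m₂) + r₂ * (α * m₁) with hρ
  have e1 : ρ = r₁ + m₁ * (α * (r₂ - r₁)) := by rw [hρ]; linear_combination r₁ * hαβ
  have e2 : ρ = r₂ + m₂ * (β * (r₁ - r₂)) := by rw [hρ]; linear_combination r₂ * hαβ
  have c1 : IsCoprime ρ (m₁ : ℤ) := by rw [e1]; exact hr₁.add_mul_left_left _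
  have c2 : IsCoprime ρ (m₂ : ℤ) := by rw [e2]; exact hr₂.add_mul_left_left _
  have c12 : IsCoprime ρ ((m₁ * m₂ : ℕ) : ℤ) := by push_cast; exact c1.mul_right c2
  obtain ⟨p, hpB, hp, hpρ⟩ :=
    Nat.forall_exists_prime_gt_and_zmodEq B (Nat.mul_ne_zero h₁ h₂) c12
  refine ⟨p, hpB, hp, ?_, ?_⟩
  · have h := hpρ
    push_cast at h
    refine (Int.ModEq.of_mul_right _ h).trans ?_
    rw [e1]
    exact Int.modEq_iff_dvd.2 ⟨-(α * (r₂ - r₁)), by ring⟩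
  · have h := hpρ
    push_cast at h
    refine (Int.ModEq.of_mul_left _ h).trans ?_
    rw [e2]
    exact Int.modEq_iff_dvd.2 ⟨-(β * (r₁ - r₂)), by ring⟩

end Fermat.Agent.S41.CSP39
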