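import Mathlib
import Fermat.Agent.S41.CSP39.NumA

set_option autoImplicit false

namespace Fermat.Agent.S41.CSP39

open Fermat.Agent.S41.Amalgam95 Fermat.Agent.S41.Ihara95

/-- clearing denominators of a unimodular column `(a, c)` with `a ≡ 1`, `c ≡ 0` mod `M ℤ[1/q]`. -/
lemma exists_int_column {q M : ℕ} (hq : q.Prime) (hM : 2 ≤ M) (hMq : Nat.Coprime M q)
    {a c : ℚ} (ha : IsCongZero q M (a - 1)) (hc : IsCongZero q M c)
    (hbez : ∃ x y : ℚ, IsAway q x ∧ IsAway q y ∧ x * a + y * c = 1) :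
    ∃ (n : ℕ) (a₁ c₃ : ℤ), a * (q : ℚ) ^ n = a₁ ∧ c * (q : ℚ) ^ n = (M : ℚ) * c₃ ∧ a₁ ≠ 0 ∧
      IsCoprime a₁ (M : ℤ) ∧ ∃ (N : ℕ) (u v : ℤ), u * a₁ + v * c₃ = (q : ℤ) ^ N := by
  have hq0 : q ≠ 0 := hq.ne_zero
  have hqQ : (q : ℚ) ≠ 0 := by exact_mod_cast hq0
  have hM0 : M ≠ 0 := by omega
  have hMQ : (M : ℚ) ≠ 0 := by exact_mod_cast hM0
  have haA : IsAway q a := isAway_of_cz_sub_one ha
  obtain ⟨r, hr, hcr⟩ := hc
  obtain ⟨n₁, a₁', ha₁'⟩ := haA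
  obtain ⟨n₂, r₂, hr₂⟩ := hr
  obtain ⟨x, y, hx, hy, hxy⟩ := hbez
  obtain ⟨nx, x₁, hx₁⟩ := hx
  obtain ⟨ny, y₁, hy₁⟩ := hy
  have ha₁ : a * (q : ℚ) ^ (n₁ + n₂) = ((a₁' * (q : ℤ) ^ n₂ : ℤ) : ℚ) := by
    push_cast; rw [pow_add, ← ha₁']; ring
  have hc₃ : r * (q : ℚ) ^ (n₁ + n₂) = ((r₂ * (q : ℤ) ^ n₁ : ℤ) : ℚ) := by
    push_cast; rw [pow_add, ← hr₂]; ring
  -- a ≠ 0
  have ha0 : a ≠ 0 := by
    rintro rfl
    have h1 : IsCongZero q M (((-1 : ℤ) : ℤ) : ℚ) := by simpa using ha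
    have h2 := dvd_of_cz_intCast hMq (-1) h1
    have h3 : (M : ℤ) ∣ 1 := by simpa using h2
    have h4 : M ∣ 1 := by exact_mod_cast h3
    have := Nat.le_of_dvd one_pos h4
    omega
  refine ⟨n₁ + n₂, a₁' * (q : ℤ) ^ n₂, r₂ * (q : ℤ) ^ n₁, ha₁, ?_, ?_, ?_, ?_⟩
  · rw [hcr, mul_assoc, hc₃]
  · intro h
    rw [h] at ha₁
    have : a * (q : ℚ) ^ (n₁ + n₂) = 0 := by simpa using ha₁
    rcases mul_eq_zero.1 this with h' | h'
    · exact ha0 h'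
    · exact pow_ne_zero _ hqQ h'
  · -- a₁ ≡ q^n mod M
    have h1 : IsCongZero q M (((a₁' * (q : ℤ) ^ n₂ - (q : ℤ) ^ (n₁ + n₂) : ℤ)) : ℚ) := by
      have : ((a₁' * (q : ℤ) ^ n₂ - (q : ℤ) ^ (n₁ + n₂) : ℤ) : ℚ)
          = (a - 1) * (q : ℚ) ^ (n₁ + n₂) := by
        rw [sub_mul, one_mul, ha₁]; push_cast; ring
      rw [this]
      exact cz_mul_right ha (isAway_pow (isAway_natCast q q) _)
    obtain ⟨w, hw⟩ := dvd_of_cz_intCast hMq _ h1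
    have hcop : IsCoprime ((q : ℤ) ^ (n₁ + n₂)) (M : ℤ) :=
      (Nat.isCoprime_iff_coprime.2 hMq).symm.pow_left
    have : a₁' * (q : ℤ) ^ n₂ = (q : ℤ) ^ (n₁ + n₂) + (M : ℤ) * w := by linarith
    rw [this]
    exact hcop.add_mul_left_left w
  · refine ⟨n₁ + n₂ + nx + ny, x₁ * (q : ℤ) ^ ny, y₁ * (M : ℤ) * (q : ℤ) ^ nx, ?_⟩
    have hQ : ((x₁ * (q : ℤ) ^ ny * (a₁' * (q : ℤ) ^ n₂)
        + y₁ * (M : ℤ) * (q : ℤ) ^ nx * (r₂ * (q : ℤ) ^ n₁) : ℤ) : ℚ)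
        = (((q : ℤ) ^ (n₁ + n₂ + nx + ny) : ℤ) : ℚ) := by
      push_cast
      push_cast at ha₁ hc₃
      rw [← hx₁, ← hy₁]
      have e1 : x * (q : ℚ) ^ nx * (q : ℚ) ^ ny * (↑a₁' * (q : ℚ) ^ n₂)
          = (x * a) * (q : ℚ) ^ (n₁ + n₂ + nx + ny) := by
        rw [← ha₁]; ring
      have e2 : y * (q : ℚ) ^ ny * (M : ℚ) * (q : ℚ) ^ nx * (↑r₂ * (q : ℚ) ^ n₁)
          = (y * c) * (q : ℚ) ^ (n₁ + n₂ + nx + ny) := by
        rw [← hc₃, hcr]; ring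
      rw [e1, e2, ← add_mul, hxy, one_mul]
    exact_mod_cast hQ

/-- **number theory of (A3)**: for a unimodular column `(a, c)`, `a ≡ 1`, `c ≡ 0` mod `M ℤ[1/q]`, one
can move `c` inside its class mod `M a ℤ[1/q]` to `c' = c + M s a` such that some unit `η = q^k ≡ 1`
mod `M` satisfies `η² - 1 = c' R` with `R` an integer prime to `M`. -/
theorem exists_unit_data {q M : ℕ} (hq : q.Prime) (hM : 2 ≤ M) (hMq : Nat.Coprime M q)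
    {a c : ℚ} (ha : IsCongZero q M (a - 1)) (hc : IsCongZero q M c)
    (hbez : ∃ x y : ℚ, IsAway q x ∧ IsAway q y ∧ x * a + y * c = 1) :
    ∃ (s : ℚ) (k : ℕ) (R : ℤ), IsAway q s ∧ (M : ℤ) ∣ (q : ℤ) ^ k - 1 ∧
      (((q : ℚ) ^ k) ^ 2 - 1 = (c + M * s * a) * R) ∧ IsCoprime R (M : ℤ) := by
  obtain ⟨n, a₁, c₃, ha₁, hc₃, ha₁0, hcopM, N, u, v, huv⟩ :=
    exists_int_column hq hM hMq ha hc hbez
  have hq0 : q ≠ 0 := hq.ne_zero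
  have hqQ : (q : ℚ) ≠ 0 := by exact_mod_cast hq0
  have hM0 : M ≠ 0 := by omega
  have hMQ : (M : ℚ) ≠ 0 := by exact_mod_cast hM0
  have ha0 : a ≠ 0 := by
    rintro rfl
    rw [zero_mul] at ha₁
    exact ha₁0 (by exact_mod_cast ha₁.symm)
  -- the prime-to-`q` part `a₀` of `a₁`
  set A₁ := a₁.natAbs with hA₁
  have hA₁0 : A₁ ≠ 0 := Int.natAbs_ne_zero.2 ha₁0
  set vq := A₁.factorization q with hvq
  set a₀ := A₁ / q ^ vq with ha₀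
  have ha₀pos : 0 < a₀ := Nat.ordCompl_pos q hA₁0
  have hA₁eq : q ^ vq * a₀ = A₁ := Nat.ordProj_mul_ordCompl_eq_self A₁ q
  have hqa₀ : Nat.Coprime q a₀ := Nat.coprime_ordCompl hq hA₁0
  have ha₀dvd : a₀ ∣ A₁ := Nat.ordCompl_dvd A₁ q
  have hA₁M : Nat.Coprime A₁ M := by
    have h := Int.isCoprime_iff_gcd_eq_one.1 hcopM
    rw [Int.gcd_eq_natAbs, Int.natAbs_natCast] at h
    exact h
  have ha₀M : Nat.Coprime a₀ M := Nat.Coprime.coprime_dvd_left ha₀dvd hA₁M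
  have ha₀c₃ : IsCoprime c₃ (a₀ : ℤ) := by
    have hg : Nat.Coprime c₃.natAbs a₀ := by
      have hga : ((Nat.gcd c₃.natAbs a₀ : ℕ) : ℤ) ∣ a₁ :=
        Int.natCast_dvd.2 (dvd_trans (Nat.gcd_dvd_right _ _) ha₀dvd)
      have hgc : ((Nat.gcd c₃.natAbs a₀ : ℕ) : ℤ) ∣ c₃ :=
        Int.natCast_dvd.2 (Nat.gcd_dvd_left _ _)
      have hgq : ((Nat.gcd c₃.natAbs a₀ : ℕ) : ℤ) ∣ (q : ℤ) ^ N := by
        rw [← huv]
        exact dvd_add (dvd_mul_of_dvd_right hga _) (dvd_mul_of_dvd_right hgc _)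
      have hgq' : Nat.gcd c₃.natAbs a₀ ∣ q ^ N := by exact_mod_cast hgq
      have hgcop : Nat.Coprime (Nat.gcd c₃.natAbs a₀) (q ^ N) :=
        Nat.Coprime.pow_right N
          (Nat.Coprime.coprime_dvd_left (Nat.gcd_dvd_right _ _) hqa₀.symm)
      exact Nat.Coprime.eq_one_of_dvd hgcop hgq'
    rw [Int.isCoprime_iff_gcd_eq_one, Int.gcd_eq_natAbs, Int.natAbs_natCast]
    exact hg
  -- the unit `E = q^(2 φ(M))` and the `M`-primary part `L` of `E - 1`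
  set φ := Nat.totient M with hφ
  have hqφ : q ^ φ ≡ 1 [MOD M] := Nat.ModEq.pow_totient hMq.symm
  set E := q ^ (2 * φ) with hE
  have hEsq : E = (q ^ φ) ^ 2 := by rw [hE, ← pow_mul, mul_comm]
  have hE1 : E ≡ 1 [MOD M] := by
    have := hqφ.pow 2
    rwa [one_pow, ← hEsq] at this
  have hEpos : 1 ≤ E := Nat.one_le_pow _ _ hq.pos
  have hφpos : 0 < φ := Nat.totient_pos.2 (by omega)
  have hEgt : 1 < E := Nat.one_lt_pow (by omega) hq.one_lt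
  have hMdvdX : M ∣ E - 1 := (Nat.modEq_iff_dvd' hEpos).1 hE1.symm
  obtain ⟨L, R₀, hX, hR₀M, hLprimes⟩ := exists_primary_decomp M (E - 1) (by omega)
  have hML : M ∣ L := by
    have h1 : M ∣ L * R₀ := hX ▸ hMdvdX
    exact Nat.Coprime.dvd_of_dvd_mul_right hR₀M.symm h1
  obtain ⟨L₁, hL₁⟩ := hML
  have ha₀L : Nat.Coprime a₀ L := Nat.coprime_of_dvd fun p hp hpa hpL =>
    hp.ne_one (Nat.eq_one_of_dvd_coprimes ha₀M hpa (hLprimes p hp hpL))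
  have hL₁dvd : L₁ ∣ L := Dvd.intro_left M hL₁.symm
  -- the residue class for the prime `c₀`
  have ht₀ : IsCoprime ((L₁ * q ^ n : ℕ) : ℤ) (a₀ : ℤ) := by
    rw [Nat.isCoprime_iff_coprime]
    exact Nat.Coprime.mul_left (Nat.Coprime.coprime_dvd_left hL₁dvd ha₀L.symm)
      (Nat.Coprime.pow_left n hqa₀)
  obtain ⟨u', v', hu'v'⟩ := ht₀
  have hκ : IsCoprime (c₃ * u') (a₀ : ℤ) :=
    ha₀c₃.mul_left ⟨((L₁ * q ^ n : ℕ) : ℤ), v', by linarith⟩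
  set M' := if 2 ∣ M then 2 * M else M with hM'
  have hM'0 : M' ≠ 0 := by rw [hM']; split_ifs <;> omega
  have ha₀M' : Nat.Coprime a₀ M' := by
    rw [hM']
    split_ifs with h2
    · exact Nat.Coprime.mul_right (Nat.Coprime.coprime_dvd_right h2 ha₀M) ha₀M
    · exact ha₀M
  have hneg1 : IsCoprime (-1 : ℤ) (M' : ℤ) := isCoprime_one_left.neg_left
  obtain ⟨c₀, hc₀B, hc₀p, hc₀κ, hc₀M'⟩ :=
    exists_prime_two_moduli (M + q + 2) ha₀pos.ne' hM'0 ha₀M' hκ hneg1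
  haveI : Fact c₀.Prime := ⟨hc₀p⟩
  -- `M ∣ h + 1`, `h = (c₀ - 1)/2`
  obtain ⟨h, hh⟩ : ∃ h, c₀ = 2 * h + 1 := by
    rcases hc₀p.eq_two_or_odd' with h2 | ⟨h, hh⟩
    · omega
    · exact ⟨h, hh⟩
  have hM'dvd : M' ∣ c₀ + 1 := by
    have h1 := (Int.modEq_iff_dvd.1 hc₀M')
    have h2 : (M' : ℤ) ∣ ((c₀ + 1 : ℕ) : ℤ) := by
      have : ((c₀ + 1 : ℕ) : ℤ) = -(-1 - (c₀ : ℤ)) := by push_cast; ring
      rw [this]; exact (dvd_neg).2 h1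
    exact_mod_cast h2
  have hMh : M ∣ h + 1 := by
    rw [hM'] at hM'dvd
    have e : c₀ + 1 = 2 * (h + 1) := by omega
    rw [e] at hM'dvd
    split_ifs at hM'dvd with h2
    · exact Nat.dvd_of_mul_dvd_mul_left (by norm_num) hM'dvd
    · have hc2 : Nat.Coprime M 2 := by
        rw [Nat.coprime_comm, Nat.Prime.coprime_iff_not_dvd Nat.prime_two]; exact h2
      exact Nat.Coprime.dvd_of_dvd_mul_left hc2 hM'dvd
  have hhM : Nat.Coprime h M :=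
    Nat.Coprime.coprime_dvd_right hMh (by simp)
  -- the order `j` of `E` mod `c₀`
  have hqc₀ : ((q : ℕ) : ZMod c₀) ≠ 0 := by
    rw [Ne, ZMod.natCast_eq_zero_iff]
    exact Nat.not_dvd_of_pos_of_lt hq.pos (by omega)
  set j := orderOf ((E : ℕ) : ZMod c₀) with hj
  have hjh : j ∣ h := by
    apply orderOf_dvd_of_pow_eq_one
    have h1 : ((q : ZMod c₀) ^ φ) ^ (c₀ - 1) = 1 :=
      ZMod.pow_card_sub_one_eq_one (pow_ne_zero _ hqc₀)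
    have h2 : c₀ - 1 = 2 * h := by omega
    rw [hEsq]
    push_cast
    rw [← pow_mul, ← h2]
    exact h1
  have hjM : Nat.Coprime j M := Nat.Coprime.coprime_dvd_left hjh hhM
  have hEj : ((E : ℕ) : ZMod c₀) ^ j = 1 := pow_orderOf_eq_one _
  -- the geometric sum
  set S : ℤ := ∑ i ∈ Finset.range j, (E : ℤ) ^ i with hS
  have hgeom : S * ((E : ℤ) - 1) = (E : ℤ) ^ j - 1 := geom_sum_mul _ _
  have hEm1 : (E : ℤ) - 1 = (L : ℤ) * R₀ := by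
    have : ((E - 1 : ℕ) : ℤ) = (E : ℤ) - 1 := by push_cast [Nat.cast_sub hEpos]; ring
    rw [← this, hX]; push_cast; ring
  have hMdvdE : (M : ℤ) ∣ (E : ℤ) - 1 := by
    rw [hEm1, hL₁]; push_cast; exact ⟨L₁ * R₀, by ring⟩
  obtain ⟨w', hw'⟩ := dvd_geom_sum_sub (M : ℤ) (E : ℤ) hMdvdE j
  have hSM : IsCoprime S (M : ℤ) := by
    have : S = (j : ℤ) + (M : ℤ) * w' := by linarith
    rw [this]
    exact (Nat.isCoprime_iff_coprime.2 hjM).add_mul_left_left w'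
  have hc₀dvd : (c₀ : ℤ) ∣ (E : ℤ) ^ j - 1 := by
    rw [← ZMod.intCast_zmod_eq_zero_iff_dvd]
    push_cast
    rw [hEj]; ring
  have hc₀L : IsCoprime (c₀ : ℤ) (L : ℤ) := by
    rw [Nat.isCoprime_iff_coprime, Nat.Prime.coprime_iff_not_dvd hc₀p]
    intro hdvd
    have := Nat.le_of_dvd (by omega) (hLprimes c₀ hc₀p hdvd)
    omega
  have hc₀SR : (c₀ : ℤ) ∣ S * R₀ := by
    have h1 : (c₀ : ℤ) ∣ (L : ℤ) * (S * R₀) := by
      have : (L : ℤ) * (S * R₀) = (E : ℤ) ^ j - 1 := by rw [← hgeom, hEm1]; ring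
      rw [this]; exact hc₀dvd
    exact hc₀L.dvd_of_dvd_mul_left h1
  obtain ⟨R, hR⟩ := hc₀SR
  have hRM : IsCoprime R (M : ℤ) := by
    have h1 : IsCoprime (S * (R₀ : ℤ)) (M : ℤ) :=
      hSM.mul_left (Nat.isCoprime_iff_coprime.2 hR₀M)
    rw [hR] at h1
    exact h1.of_mul_left_right
  -- `s`
  have hdvdw : (a₀ : ℤ) ∣ ((L₁ * q ^ n : ℕ) : ℤ) * c₀ - c₃ := by
    obtain ⟨z, hz⟩ := Int.modEq_iff_dvd.1 hc₀κ
    refine ⟨-(((L₁ * q ^ n : ℕ) : ℤ) * z) - c₃ * v', ?_⟩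
    linear_combination (-((L₁ * q ^ n : ℕ) : ℤ)) * hz + c₃ * hu'v'
  obtain ⟨w, hw⟩ := hdvdw
  have hwQ : ((L₁ : ℚ) * (q : ℚ) ^ n) * c₀ - c₃ = a₀ * w := by exact_mod_cast hw
  have hLQ : (L : ℚ) = M * L₁ := by exact_mod_cast hL₁
  have hMa : (M : ℚ) * a ≠ 0 := mul_ne_zero hMQ ha0
  refine ⟨((L : ℚ) * c₀ - c) / (M * a), φ * j, R, ?_, ?_, ?_, hRM⟩
  · -- `s ∈ ℤ[1/q]`
    have hA₁Q : ((A₁ : ℕ) : ℚ) = (q : ℚ) ^ vq * a₀ := by exact_mod_cast hA₁eq.symm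
    rcases Int.natAbs_eq a₁ with hs | hs
    · refine ⟨vq, w, ?_⟩
      have h1 : a * (q : ℚ) ^ n = (q : ℚ) ^ vq * a₀ := by
        rw [ha₁, hs, ← hA₁]; push_cast; exact hA₁Q
      rw [div_mul_eq_mul_div, div_eq_iff hMa]
      apply mul_right_cancel₀ (pow_ne_zero n hqQ)
      linear_combination ((c₀ : ℚ) * (q : ℚ) ^ vq * (q : ℚ) ^ n) * hLQ - (q : ℚ) ^ vq * hc₃
        + ((M : ℚ) * (q : ℚ) ^ vq) * hwQ - ((w : ℚ) * M) * h1
    · refine ⟨vq, -w, ?_⟩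
      have h1 : a * (q : ℚ) ^ n = -((q : ℚ) ^ vq * a₀) := by
        rw [ha₁, hs, ← hA₁]; push_cast; rw [hA₁Q]
      rw [div_mul_eq_mul_div, div_eq_iff hMa]
      apply mul_right_cancel₀ (pow_ne_zero n hqQ)
      push_cast
      linear_combination ((c₀ : ℚ) * (q : ℚ) ^ vq * (q : ℚ) ^ n) * hLQ - (q : ℚ) ^ vq * hc₃
        + ((M : ℚ) * (q : ℚ) ^ vq) * hwQ + ((w : ℚ) * M) * h1
  · -- `q^k ≡ 1 mod M`
    have h1 : (q ^ φ) ^ j ≡ 1 [MOD M] := by simpa using hqφ.pow j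
    rw [← pow_mul] at h1
    have h2 := (Nat.modEq_iff_dvd.1 h1.symm)
    push_cast at h2
    exact h2
  · -- the key equation
    have h1 : (c + M * (((L : ℚ) * c₀ - c) / (M * a)) * a) = (L : ℚ) * c₀ := by
      field_simp
      ring
    rw [h1]
    have h2 : ((q : ℤ) ^ (φ * j)) ^ 2 - 1 = (L : ℤ) * c₀ * R := by
      have : ((q : ℤ) ^ (φ * j)) ^ 2 = (E : ℤ) ^ j := by
        rw [hE]; push_cast; rw [← pow_mul, ← pow_mul]; ring_nf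
      rw [this, ← hgeom, hEm1]
      linear_combination (L : ℤ) * hR
    exact_mod_cast h2

end Fermat.Agent.S41.CSP39
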