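/-
S41 / C4 [CSP] (helper39, monolithic spare): STEP A (centrality): a par-hom of level `M` on
`Γ(M)(ℤ[1/q])` is invariant under conjugation by `u(t)`, `l(t)` (`t ∈ ℤ[1/q]`) and `w`.
-/
import Mathlib
import Fermat.Agent.S41.CSP39.Mat
import Fermat.Agent.S41.CSP39.NumA2

set_option autoImplicit false
set_option linter.unusedSimpArgs false

namespace Fermat.Agent.S41.CSP39

open Matrix Fermat.Agent.S41.Amalgam95 Fermat.Agent.S41.Ihara95

variable {V : Type*} [AddCommGroup V] {q M : ℕ} {Ψ : SLQ → V}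

/-- Bezout relation for the first column of a matrix over `ℤ[1/q]`. -/
lemma col_bezout {g : SLQ} (hg : IsAwayMat q g) :
    ∃ x y : ℚ, IsAway q x ∧ IsAway q y ∧ x * g 0 0 + y * g 1 0 = 1 :=
  ⟨g 1 1, -(g 0 1), hg.2.2.2, hg.2.1.neg, by have := det_eq g; linear_combination this⟩

/-- geometric sums of elements `≡ 1`. -/
lemma cz_geom_sum_sub {x : ℚ} (hx : IsCongZero q M (x - 1)) (i : ℕ) :
    IsCongZero q M ((∑ j ∈ Finset.range i, x ^ j) - i) := by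
  induction i with
  | zero => simpa using cz_zero (q := q) (M := M)
  | succ i ih =>
    rw [Finset.sum_range_succ]
    have : (∑ j ∈ Finset.range i, x ^ j) + x ^ i - ((i + 1 : ℕ) : ℚ)
        = ((∑ j ∈ Finset.range i, x ^ j) - i) + (x ^ i - 1) := by push_cast; ring
    rw [this]
    exact cz_add ih (cz_pow_sub_one hx i)

/-- **STEP A, `u(t)`**. -/
theorem stepA_U (hq : q.Prime) (hM : 2 ≤ M) (hMq : Nat.Coprime M q) (h : IsParHom q M Ψ)
    {g : SLQ} (hg : IsPrincipal q M g) {t : ℚ} (ht : IsAway q t) :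
    Ψ (U t * g * (U t)⁻¹) = Ψ g := by
  have hq0 : q ≠ 0 := hq.ne_zero
  have hqQ : (q : ℚ) ≠ 0 := by exact_mod_cast hq0
  obtain ⟨s, k, R, hs, hk, hkey, hRM⟩ :=
    exists_unit_data hq hM hMq hg.1 hg.2.2.1 (col_bezout (IsPrincipal.isAwayMat hg))
  -- `g' := l(M s) g`
  have pL : IsPrincipal q M (Lo (M * s)) := isPrincipal_Lo (cz_M_mul hs)
  have pg' : IsPrincipal q M (Lo (M * s) * g) := IsPrincipal.mul pL hg
  have hΨg' : Ψ (Lo (M * s) * g) = Ψ g := h.unip_mul pL (by simp; norm_num) hg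
  have hUt : IsAwayMat q (U t) := isAwayMat_U ht
  have htrans : Ψ (U t * (Lo (M * s) * g) * (U t)⁻¹) = Ψ (U t * g * (U t)⁻¹) := by
    have : U t * (Lo (M * s) * g) * (U t)⁻¹
        = (U t * Lo (M * s) * (U t)⁻¹) * (U t * g * (U t)⁻¹) := by group
    rw [this]
    exact h.unip_mul (IsPrincipal.conj hUt pL) (by rw [trace_conj]; simp; norm_num)
      (IsPrincipal.conj hUt hg)
  rw [← htrans, ← hΨg']
  generalize hg'def : Lo (M * s) * g = g' at pg' ⊢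
  have ha : g' 0 0 = g 0 0 := by rw [← hg'def, mul_00]; simp
  have hc' : g' 1 0 = g 1 0 + M * s * g 0 0 := by rw [← hg'def, mul_10]; simp; ring
  rw [← hc'] at hkey
  -- the unit `e = q^k`
  set e : ℚ := (q : ℚ) ^ k with he
  have he0 : e ≠ 0 := pow_ne_zero _ hqQ
  have he1 : IsCongZero q M (e - 1) := by
    have := cz_intCast_of_dvd (q := q) _ hk
    push_cast at this
    exact this
  obtain ⟨α, β, hαβ⟩ := hRM
  obtain ⟨i, hi⟩ := exists_nat_cz_sub (by omega) hMq (ht.mul (IsAway.of_int α))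
  have hei0 : e ^ i ≠ 0 := pow_ne_zero _ he0
  have hei1 : IsCongZero q M (e ^ i - 1) := cz_pow_sub_one he1 i
  have heiinv : IsAway q (e ^ i)⁻¹ := by
    rw [he, ← pow_mul]; exact isAway_inv_q_pow hq0 _
  have pH : IsPrincipal q M (Hd (e ^ i) hei0) := isPrincipal_Hd hei0 hei1 heiinv
  have hΨH : Ψ (Hd (e ^ i) hei0) = 0 := h.map_Hd hei0 hei1 heiinv
  -- `G₂ = h g' h`
  have pG₂ : IsPrincipal q M (Hd (e ^ i) hei0 * g' * Hd (e ^ i) hei0) :=
    IsPrincipal.mul (IsPrincipal.mul pH pg') pH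
  have hΨG₂ : Ψ (Hd (e ^ i) hei0 * g' * Hd (e ^ i) hei0) = Ψ g' := by
    rw [h.map_mul _ _ (IsPrincipal.mul pH pg') pH, h.map_mul _ _ pH pg', hΨH]; simp
  have hG₂00 : (Hd (e ^ i) hei0 * g' * Hd (e ^ i) hei0) 0 0 = (e ^ i) ^ 2 * g' 0 0 := by
    rw [mul_00, mul_00, mul_01]; simp; ring
  have hG₂10 : (Hd (e ^ i) hei0 * g' * Hd (e ^ i) hei0) 1 0 = g' 1 0 := by
    rw [mul_10, mul_10, mul_11]; simp; field_simp
  -- the geometric sum
  set S : ℚ := ∑ j ∈ Finset.range i, (e ^ 2) ^ j with hS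
  have hgeom : S * (e ^ 2 - 1) = (e ^ 2) ^ i - 1 := geom_sum_mul _ _
  have he2 : IsCongZero q M (e ^ 2 - 1) := cz_pow_sub_one he1 2
  have hSi : IsCongZero q M (S - i) := cz_geom_sum_sub he2 i
  have haA : IsAway q (g' 0 0) := isAway_of_cz_sub_one pg'.1
  have hSA : IsAway q S := by
    have : S = (S - i) + i := by ring
    rw [this]; exact (cz_isAway hSi).add (isAway_natCast q i)
  -- `τ`
  have hτ : IsCongZero q M (t - g' 0 0 * R * S) := by
    have e1 : t - g' 0 0 * R * S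
        = (M : ℚ) * (t * β) + R * (t * α - i) + R * ((i : ℚ) - S) + (R * S) * (1 - g' 0 0) := by
      have hαβQ : (α : ℚ) * R + β * M = 1 := by exact_mod_cast hαβ
      linear_combination (-t) * hαβQ
    rw [e1]
    refine cz_add (cz_add (cz_add (cz_M_mul (ht.mul (IsAway.of_int β)))
      (cz_mul_left (IsAway.of_int R) hi)) (cz_mul_left (IsAway.of_int R) ?_))
      (cz_mul_left ((IsAway.of_int R).mul hSA) ?_)
    · have : (i : ℚ) - S = -(S - i) := by ring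
      rw [this]; exact cz_neg hSi
    · have : 1 - g' 0 0 = -(g' 0 0 - 1) := by ring
      rw [this]; exact cz_neg pg'.1
  have pUτ : IsPrincipal q M (U (t - g' 0 0 * R * S)) := isPrincipal_U hτ
  have hΨG₄ : Ψ (U (t - g' 0 0 * R * S) * (Hd (e ^ i) hei0 * g' * Hd (e ^ i) hei0)) = Ψ g' := by
    rw [h.unip_mul pUτ (by simp; norm_num) pG₂, hΨG₂]
  rw [← hΨG₄]
  refine h.col (IsPrincipal.mul pUτ pG₂) (IsPrincipal.conj hUt pg') ?_ ?_
  · rw [conj_00, mul_00, hG₂00, hG₂10]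
    simp only [U_00, U_01, U_10, U_11]
    have h2 : (e ^ i) ^ 2 - 1 = S * (g' 1 0 * R) := by
      rw [← hkey, hgeom]; ring
    linear_combination (-(g' 0 0)) * h2
  · rw [conj_10, mul_10, hG₂10]
    simp only [U_00, U_01, U_10, U_11]
    ring

/-- `w u(t) w⁻¹ = l(-t)`. -/
lemma Wm_U_conj (t : ℚ) : Wm * U t * Wm⁻¹ = Lo (-t) := by
  apply ext_entries
  · rw [conj_00]; simp
  · rw [conj_01]; simp
  · rw [conj_10]; simp
  · rw [conj_11]; simp

/-- **STEP A, `l(t)`**. -/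
theorem stepA_Lo (hq : q.Prime) (hM : 2 ≤ M) (hMq : Nat.Coprime M q) (h : IsParHom q M Ψ)
    {g : SLQ} (hg : IsPrincipal q M g) {t : ℚ} (ht : IsAway q t) :
    Ψ (Lo t * g * (Lo t)⁻¹) = Ψ g := by
  have hW : IsAwayMat q Wm := isAwayMat_Wm
  have h' : IsParHom q M (fun g => Ψ (Wm * g * Wm⁻¹)) :=
    h.conj Wm (fun g hg => IsPrincipal.conj hW hg)
  have pg₁ : IsPrincipal q M (Wm⁻¹ * g * Wm) := IsPrincipal.conj' hW hg
  have key := stepA_U hq hM hMq h' pg₁ (t := -t) ht.neg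
  have e1 : Wm * (U (-t) * (Wm⁻¹ * g * Wm) * (U (-t))⁻¹) * Wm⁻¹
      = (Wm * U (-t) * Wm⁻¹) * g * (Wm * U (-t) * Wm⁻¹)⁻¹ := by group
  have e2 : Wm * (Wm⁻¹ * g * Wm) * Wm⁻¹ = g := by group
  simp only [e1, e2, Wm_U_conj, neg_neg] at key
  exact key

/-- `w = u(1) l(-1) u(1)`. -/
lemma Wm_eq : Wm = U 1 * Lo (-1) * U 1 := by
  apply ext_entries <;> simp [mul_00, mul_01, mul_10, mul_11]

/-- **STEP A, `w`**. -/
theorem stepA_W (hq : q.Prime) (hM : 2 ≤ M) (hMq : Nat.Coprime M q) (h : IsParHom q M Ψ)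
    {g : SLQ} (hg : IsPrincipal q M g) : Ψ (Wm * g * Wm⁻¹) = Ψ g := by
  have h1 : IsAway q (1 : ℚ) := IsAway.one
  have hU1 : IsAwayMat q (U 1) := isAwayMat_U h1
  have hL1 : IsAwayMat q (Lo (-1)) := isAwayMat_Lo h1.neg
  have p1 : IsPrincipal q M (U 1 * g * (U 1)⁻¹) := IsPrincipal.conj hU1 hg
  have p2 : IsPrincipal q M (Lo (-1) * (U 1 * g * (U 1)⁻¹) * (Lo (-1))⁻¹) :=
    IsPrincipal.conj hL1 p1
  have e : Wm * g * Wm⁻¹
      = U 1 * (Lo (-1) * (U 1 * g * (U 1)⁻¹) * (Lo (-1))⁻¹) * (U 1)⁻¹ := by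
    rw [Wm_eq]; group
  rw [e, stepA_U hq hM hMq h p2 h1, stepA_Lo hq hM hMq h p1 h1.neg, stepA_U hq hM hMq h hg h1]

theorem stepA_W' (hq : q.Prime) (hM : 2 ≤ M) (hMq : Nat.Coprime M q) (h : IsParHom q M Ψ)
    {g : SLQ} (hg : IsPrincipal q M g) : Ψ (Wm⁻¹ * g * Wm) = Ψ g := by
  have p : IsPrincipal q M (Wm⁻¹ * g * Wm) := IsPrincipal.conj' isAwayMat_Wm hg
  have := stepA_W hq hM hMq h p
  have e : Wm * (Wm⁻¹ * g * Wm) * Wm⁻¹ = g := by group
  rw [e] at this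
  exact this.symm

end Fermat.Agent.S41.CSP39
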