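/-
S41 / C4 [CSP] (helper39, monolithic spare): STEP B: a par-hom of level `m` with values in an
`𝔽_p`-space is invariant under conjugation by `h(ℓ) = diag(ℓ, 1/ℓ) ∈ SL(2,ℚ)` (where defined), for
every prime `ℓ ∤ m q` with `ℓ ≢ 0, 1 mod p`.
-/
import Mathlib
import Fermat.Agent.S41.CSP39.StepA

set_option autoImplicit false
set_option linter.unusedSimpArgs false

namespace Fermat.Agent.S41.CSP39

open Matrix Fermat.Agent.S41.Amalgam95 Fermat.Agent.S41.Ihara95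

/-! ### conjugation by `h(e)` -/

section Hd
variable (e : ℚ) (he : e ≠ 0) (y : SLQ)

lemma Hd_conj_00 : (Hd e he * y * (Hd e he)⁻¹) 0 0 = y 0 0 := by
  rw [conj_00]; simp; field_simp
lemma Hd_conj_01 : (Hd e he * y * (Hd e he)⁻¹) 0 1 = e ^ 2 * y 0 1 := by
  rw [conj_01]; simp; ring
lemma Hd_conj_10 : (Hd e he * y * (Hd e he)⁻¹) 1 0 = y 1 0 / e ^ 2 := by
  rw [conj_10]; simp; field_simp
lemma Hd_conj_11 : (Hd e he * y * (Hd e he)⁻¹) 1 1 = y 1 1 := by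
  rw [conj_11]; simp; field_simp

lemma Hd_inv : (Hd e he)⁻¹ = Hd e⁻¹ (inv_ne_zero he) := by
  apply ext_entries <;> simp [inv_00, inv_01, inv_10, inv_11]

lemma Hd_Lo_conj (t : ℚ) : Hd e he * Lo t * (Hd e he)⁻¹ = Lo (t / e ^ 2) := by
  apply ext_entries
  · rw [Hd_conj_00]; simp
  · rw [Hd_conj_01]; simp
  · rw [Hd_conj_10]; simp
  · rw [Hd_conj_11]; simp

lemma Hd_U_conj (t : ℚ) : Hd e he * U t * (Hd e he)⁻¹ = U (e ^ 2 * t) := by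
  apply ext_entries
  · rw [Hd_conj_00]; simp
  · rw [Hd_conj_01]; simp
  · rw [Hd_conj_10]; simp
  · rw [Hd_conj_11]; simp

/-- `h(e) = u(e) l(-1/e) u(e) w⁻¹`. -/
lemma Hd_eq_ULUW : Hd e he = U e * Lo (-e⁻¹) * U e * Wm⁻¹ := by
  have h1 : e * e⁻¹ = 1 := mul_inv_cancel₀ he
  apply ext_entries
  · simp only [mul_00, mul_01, mul_10, mul_11, inv_00, inv_01, inv_10, inv_11, U_00, U_01, U_10,
      U_11, Lo_00, Lo_01, Lo_10, Lo_11, Wm_00, Wm_01, Wm_10, Wm_11, Hd_00]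
    linear_combination e * h1
  · simp only [mul_00, mul_01, mul_10, mul_11, inv_00, inv_01, inv_10, inv_11, U_00, U_01, U_10,
      U_11, Lo_00, Lo_01, Lo_10, Lo_11, Wm_00, Wm_01, Wm_10, Wm_11, Hd_01]
    linear_combination (-1 : ℚ) * h1
  · simp only [mul_00, mul_01, mul_10, mul_11, inv_00, inv_01, inv_10, inv_11, U_00, U_01, U_10,
      U_11, Lo_00, Lo_01, Lo_10, Lo_11, Wm_00, Wm_01, Wm_10, Wm_11, Hd_10]
    linear_combination h1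
  · simp only [mul_00, mul_01, mul_10, mul_11, inv_00, inv_01, inv_10, inv_11, U_00, U_01, U_10,
      U_11, Lo_00, Lo_01, Lo_10, Lo_11, Wm_00, Wm_01, Wm_10, Wm_11, Hd_11]
    ring

end Hd

variable {q m ℓ : ℕ}

/-- `h(ℓ) Γ' h(ℓ)⁻¹ ⊆ Γ(m)` for `Γ' = {g ∈ Γ(m) : c ∈ m ℓ² A}`. -/
lemma isPrincipal_Hd_conj (hℓ0 : (ℓ : ℚ) ≠ 0) {y : SLQ} (hy : IsPrincipal q m y)
    (h10 : IsCongZero q (m * ℓ ^ 2) (y 1 0)) :
    IsPrincipal q m (Hd ℓ hℓ0 * y * (Hd ℓ hℓ0)⁻¹) := by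
  refine ⟨?_, ?_, ?_, ?_⟩
  · rw [Hd_conj_00]; exact hy.1
  · rw [Hd_conj_01]
    exact cz_mul_left (isAway_pow (isAway_natCast q ℓ) 2) hy.2.1
  · rw [Hd_conj_10]
    have hℓ : ℓ ≠ 0 := by exact_mod_cast hℓ0
    have := cz_div (q := q) (M := m) (K := ℓ ^ 2) (pow_ne_zero 2 hℓ) h10
    push_cast at this
    exact this
  · rw [Hd_conj_11]; exact hy.2.2.2

/-- `h(ℓ)⁻¹ Γ(m ℓ⁴) h(ℓ) ⊆ Γ(m ℓ²)`. -/
lemma isPrincipal_Hd_conj' (hℓ0 : (ℓ : ℚ) ≠ 0) {g : SLQ} (hg : IsPrincipal q (m * ℓ ^ 4) g) :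
    IsPrincipal q (m * ℓ ^ 2) ((Hd ℓ hℓ0)⁻¹ * g * Hd ℓ hℓ0) := by
  have hℓ : ℓ ≠ 0 := by exact_mod_cast hℓ0
  have hd : m * ℓ ^ 2 ∣ m * ℓ ^ 4 := ⟨ℓ ^ 2, by ring⟩
  have e : (Hd ℓ hℓ0)⁻¹ * g * Hd ℓ hℓ0
      = Hd (ℓ : ℚ)⁻¹ (inv_ne_zero hℓ0) * g * (Hd (ℓ : ℚ)⁻¹ (inv_ne_zero hℓ0))⁻¹ := by
    rw [← Hd_inv, inv_inv]
  rw [e]
  refine ⟨?_, ?_, ?_, ?_⟩
  · rw [Hd_conj_00]; exact cz_of_dvd hd hg.1
  · rw [Hd_conj_01]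
    have h1 : IsCongZero q (m * ℓ ^ 2 * ℓ ^ 2) (g 0 1) := by
      have : m * ℓ ^ 2 * ℓ ^ 2 = m * ℓ ^ 4 := by ring
      rw [this]; exact hg.2.1
    have := cz_div (q := q) (M := m * ℓ ^ 2) (K := ℓ ^ 2) (pow_ne_zero 2 hℓ) h1
    push_cast at this
    have e2 : ((ℓ : ℚ)⁻¹) ^ 2 * g 0 1 = g 0 1 / (ℓ : ℚ) ^ 2 := by field_simp
    rw [e2]; exact this
  · rw [Hd_conj_10]
    have e2 : g 1 0 / ((ℓ : ℚ)⁻¹) ^ 2 = (ℓ : ℚ) ^ 2 * g 1 0 := by field_simp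
    rw [e2]
    exact cz_mul_left (isAway_pow (isAway_natCast q ℓ) 2) (cz_of_dvd hd hg.2.2.1)
  · rw [Hd_conj_11]; exact cz_of_dvd hd hg.2.2.2

/-- coprime moduli: `M₁ A ∩ M₂ A = M₁ M₂ A`. -/
lemma cz_of_coprime {M₁ M₂ : ℕ} (hcop : Nat.Coprime M₁ M₂) {x : ℚ}
    (h1 : IsCongZero q M₁ x) (h2 : IsCongZero q M₂ x) : IsCongZero q (M₁ * M₂) x := by
  obtain ⟨r₁, hr₁, e1⟩ := h1
  obtain ⟨r₂, hr₂, e2⟩ := h2
  obtain ⟨α, β, hαβ⟩ : IsCoprime (M₁ : ℤ) (M₂ : ℤ) := Nat.isCoprime_iff_coprime.2 hcop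
  have hQ : (α : ℚ) * M₁ + β * M₂ = 1 := by exact_mod_cast hαβ
  refine ⟨α * r₂ + β * r₁, ((IsAway.of_int α).mul hr₂).add ((IsAway.of_int β).mul hr₁), ?_⟩
  push_cast
  have : x = x * ((α : ℚ) * M₁ + β * M₂) := by rw [hQ, mul_one]
  rw [this]
  have e1' : x * ((α : ℚ) * M₁) = (M₁ : ℚ) * M₂ * (α * r₂) := by rw [e2]; ring
  have e2' : x * ((β : ℚ) * M₂) = (M₁ : ℚ) * M₂ * (β * r₁) := by rw [e1]; ring
  rw [mul_add, e1', e2']; ring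

namespace IsParHom
variable {V : Type*} [AddCommGroup V] {Ψ : SLQ → V} {M : ℕ}

lemma isPrincipal_pow {g : SLQ} (hg : IsPrincipal q M g) (n : ℕ) : IsPrincipal q M (g ^ n) := by
  induction n with
  | zero => simpa using isPrincipal_one (q := q) (M := M)
  | succ n ih => rw [pow_succ]; exact IsPrincipal.mul ih hg

lemma map_pow (h : IsParHom q M Ψ) {g : SLQ} (hg : IsPrincipal q M g) (n : ℕ) :
    Ψ (g ^ n) = n • Ψ g := by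
  induction n with
  | zero => simpa using h.map_one
  | succ n ih =>
    rw [pow_succ, h.map_mul _ _ (isPrincipal_pow hg n) hg, ih, succ_nsmul]

end IsParHom

/-- powers of a matrix which is diagonal modulo `K`. -/
lemma pow_diag_mod {K : ℕ} {E : SLQ} (hE : IsAwayMat q E) (h01 : IsCongZero q K (E 0 1))
    (h10 : IsCongZero q K (E 1 0)) (n : ℕ) :
    IsAwayMat q (E ^ n) ∧ IsCongZero q K ((E ^ n) 0 1) ∧ IsCongZero q K ((E ^ n) 1 0) ∧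
      IsCongZero q K ((E ^ n) 0 0 - (E 0 0) ^ n) := by
  induction n with
  | zero =>
    refine ⟨?_, ?_, ?_, ?_⟩
    · rw [pow_zero]; exact ⟨by rw [one_00]; exact IsAway.one, by rw [one_01]; exact IsAway.zero,
        by rw [one_10]; exact IsAway.zero, by rw [one_11]; exact IsAway.one⟩
    · rw [pow_zero, one_01]; exact cz_zero
    · rw [pow_zero, one_10]; exact cz_zero
    · rw [pow_zero, one_00, pow_zero, sub_self]; exact cz_zero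
  | succ n ih =>
    obtain ⟨⟨a00, a01, a10, a11⟩, i01, i10, i00⟩ := ih
    obtain ⟨e00, e01, e10, e11⟩ := hE
    refine ⟨⟨?_, ?_, ?_, ?_⟩, ?_, ?_, ?_⟩
    · rw [pow_succ, mul_00]; exact (a00.mul e00).add (a01.mul e10)
    · rw [pow_succ, mul_01]; exact (a00.mul e01).add (a01.mul e11)
    · rw [pow_succ, mul_10]; exact (a10.mul e00).add (a11.mul e10)
    · rw [pow_succ, mul_11]; exact (a10.mul e01).add (a11.mul e11)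
    · rw [pow_succ, mul_01]; exact cz_add (cz_mul_left a00 h01) (cz_mul_right i01 e11)
    · rw [pow_succ, mul_10]; exact cz_add (cz_mul_right i10 e00) (cz_mul_left a11 h10)
    · rw [pow_succ, mul_00, pow_succ]
      have : (E ^ n) 0 0 * E 0 0 + (E ^ n) 0 1 * E 1 0 - E 0 0 ^ n * E 0 0
          = ((E ^ n) 0 0 - E 0 0 ^ n) * E 0 0 + (E ^ n) 0 1 * E 1 0 := by ring
      rw [this]
      exact cz_add (cz_mul_right i00 e00) (cz_mul_left a01 h10)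

/-- Euler's theorem in `ℤ[1/q] / K`. -/
lemma cz_pow_totient_sub_one {K : ℕ} (hK : 0 < K) (hKq : Nat.Coprime K q) {x x' : ℚ}
    (hx : IsAway q x) (hx' : IsAway q x') (hxx' : IsCongZero q K (x * x' - 1)) :
    IsCongZero q K (x ^ Nat.totient K - 1) := by
  obtain ⟨i, hi⟩ := exists_nat_cz_sub hK hKq hx
  obtain ⟨i', hi'⟩ := exists_nat_cz_sub hK hKq hx'
  have h1 : IsCongZero q K (((i : ℤ) * i' - 1 : ℤ) : ℚ) := by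
    have : (((i : ℤ) * i' - 1 : ℤ) : ℚ) = (x * x' - 1) - (x * x' - (i : ℚ) * i') := by
      push_cast; ring
    rw [this]
    exact cz_sub hxx' (cz_mul_sub_mul hx (isAway_natCast q i') hi hi')
  obtain ⟨w, hw⟩ := dvd_of_cz_intCast hKq _ h1
  have hcop : Nat.Coprime i K := by
    rw [← Nat.isCoprime_iff_coprime]
    exact ⟨i', -w, by linarith⟩
  have h2 := Nat.ModEq.pow_totient hcop
  have h3 : (K : ℤ) ∣ ((i : ℤ) ^ Nat.totient K - 1) := by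
    have := (Nat.modEq_iff_dvd.1 h2.symm)
    push_cast at this
    exact this
  have h4 : IsCongZero q K ((i : ℚ) ^ Nat.totient K - 1) := by
    have := cz_intCast_of_dvd (q := q) _ h3
    push_cast at this
    exact this
  have : x ^ Nat.totient K - 1 = (x ^ Nat.totient K - (i : ℚ) ^ Nat.totient K)
      + ((i : ℚ) ^ Nat.totient K - 1) := by ring
  rw [this]
  exact cz_add (cz_pow_sub_pow hx (isAway_natCast q i) hi _) h4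

/-- torsion: `n • v = 0`, `p • v = 0`, `gcd(n,p) = 1` ⟹ `v = 0`. -/
lemma eq_zero_of_coprime_smul {V : Type*} [AddCommGroup V] {n p : ℕ} (hnp : Nat.Coprime n p)
    {v : V} (hn : n • v = 0) (hp : p • v = 0) : v = 0 := by
  obtain ⟨α, β, hαβ⟩ : IsCoprime (n : ℤ) (p : ℤ) := Nat.isCoprime_iff_coprime.2 hnp
  have : v = (α * n + β * p) • v := by rw [hαβ, one_smul]
  rw [this, add_smul, mul_smul, mul_smul, natCast_zsmul, natCast_zsmul, hn, hp]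
  simp

section StepB
variable {V : Type*} [AddCommGroup V] {Φ : SLQ → V} {p : ℕ}

/-- **(B2)**: invariance under `h(ℓ)` on the deep congruence subgroup `Γ(m ℓ⁴)`. -/
theorem stepB_deep (hq : q.Prime) (hm : 2 ≤ m) (hmq : Nat.Coprime m q) (hℓ : ℓ.Prime)
    (hℓq : ℓ ≠ q) (hℓ0 : (ℓ : ℚ) ≠ 0) (h : IsParHom q m Φ) {g : SLQ}
    (hg : IsPrincipal q (m * ℓ ^ 4) g) :
    Φ (Hd ℓ hℓ0 * g * (Hd ℓ hℓ0)⁻¹) = Φ g := by
  have hℓA : IsAway q (ℓ : ℚ) := isAway_natCast q ℓ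
  have hdvd4 : m ∣ m * ℓ ^ 4 := Dvd.intro _ rfl
  have hdvd2 : m ∣ m * ℓ ^ 2 := Dvd.intro _ rfl
  have hgm : IsPrincipal q m g := IsPrincipal.of_dvd hdvd4 hg
  have hlev : 2 ≤ m * ℓ ^ 2 := by
    have := hℓ.two_le
    nlinarith [pow_pos hℓ.pos 2]
  have hlevq : Nat.Coprime (m * ℓ ^ 2) q :=
    Nat.Coprime.mul_left hmq (Nat.Coprime.pow_left 2 ((Nat.coprime_primes hℓ hq).2 hℓq))
  have hΨ : IsParHom q (m * ℓ ^ 2) (fun y => Φ (Hd ℓ hℓ0 * y * (Hd ℓ hℓ0)⁻¹)) :=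
    h.conj (Hd ℓ hℓ0) (fun y hy =>
      isPrincipal_Hd_conj hℓ0 (IsPrincipal.of_dvd hdvd2 hy) hy.2.2.1)
  have hU : IsAwayMat q (U (ℓ : ℚ)) := isAwayMat_U hℓA
  have hLo : IsAwayMat q (Lo (-(ℓ : ℚ))) := isAwayMat_Lo hℓA.neg
  -- g₁ = w⁻¹ g w, g₂ = u(ℓ) g₁ u(-ℓ)
  have pg₁ : IsPrincipal q (m * ℓ ^ 4) (Wm⁻¹ * g * Wm) := IsPrincipal.conj' isAwayMat_Wm hg
  have hΦg₁ : Φ (Wm⁻¹ * g * Wm) = Φ g := stepA_W' hq hm hmq h hgm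
  have pg₂ : IsPrincipal q (m * ℓ ^ 4) (U ℓ * (Wm⁻¹ * g * Wm) * (U ℓ)⁻¹) :=
    IsPrincipal.conj hU pg₁
  have hΦg₂ : Φ (U ℓ * (Wm⁻¹ * g * Wm) * (U ℓ)⁻¹) = Φ (Wm⁻¹ * g * Wm) :=
    stepA_U hq hm hmq h (IsPrincipal.of_dvd hdvd4 pg₁) hℓA
  generalize hg₂ : U ℓ * (Wm⁻¹ * g * Wm) * (U ℓ)⁻¹ = g₂ at pg₂ hΦg₂
  -- y = h⁻¹ g₂ h
  have py : IsPrincipal q (m * ℓ ^ 2) ((Hd ℓ hℓ0)⁻¹ * g₂ * Hd ℓ hℓ0) :=
    isPrincipal_Hd_conj' hℓ0 pg₂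
  have key := stepA_Lo hq hlev hlevq hΨ py (t := -(ℓ : ℚ)) hℓA.neg
  have pin : IsPrincipal q (m * ℓ ^ 2)
      (Lo (-(ℓ : ℚ)) * ((Hd ℓ hℓ0)⁻¹ * g₂ * Hd ℓ hℓ0) * (Lo (-(ℓ : ℚ)))⁻¹) :=
    IsPrincipal.conj hLo py
  have pg₃ := isPrincipal_Hd_conj hℓ0 (IsPrincipal.of_dvd hdvd2 pin) pin.2.2.1
  have e1 : Hd ℓ hℓ0 * ((Hd ℓ hℓ0)⁻¹ * g₂ * Hd ℓ hℓ0) * (Hd ℓ hℓ0)⁻¹ = g₂ := by group
  have e2 : Hd ℓ hℓ0 * (Lo (-(ℓ : ℚ)) * ((Hd ℓ hℓ0)⁻¹ * g₂ * Hd ℓ hℓ0) * (Lo (-(ℓ : ℚ)))⁻¹)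
      * (Hd ℓ hℓ0)⁻¹
      = (Hd ℓ hℓ0 * Lo (-(ℓ : ℚ)) * (Hd ℓ hℓ0)⁻¹) * g₂
        * (Hd ℓ hℓ0 * Lo (-(ℓ : ℚ)) * (Hd ℓ hℓ0)⁻¹)⁻¹ := by group
  have e3 : Hd ℓ hℓ0 * Lo (-(ℓ : ℚ)) * (Hd ℓ hℓ0)⁻¹ = Lo (-(ℓ : ℚ)⁻¹) := by
    rw [Hd_Lo_conj]; congr 1; field_simp
  simp only [e1] at key
  rw [e2, e3] at key pg₃
  -- g₄
  have hΦg₄ := stepA_U hq hm hmq h pg₃ hℓA
  have e4 : Hd ℓ hℓ0 * g * (Hd ℓ hℓ0)⁻¹
      = U ℓ * (Lo (-(ℓ : ℚ)⁻¹) * g₂ * (Lo (-(ℓ : ℚ)⁻¹))⁻¹) * (U ℓ)⁻¹ := by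
    rw [← hg₂, Hd_eq_ULUW]; group
  rw [e4, hΦg₄, key, hΦg₂, hΦg₁]

/-- **STEP B**. -/
theorem stepB (hq : q.Prime) (hm : 2 ≤ m) (hmq : Nat.Coprime m q) (hℓ : ℓ.Prime)
    (hℓq : ℓ ≠ q) (hℓm : ¬ ℓ ∣ m) (hℓ0 : (ℓ : ℚ) ≠ 0) (hp : p.Prime) (hpℓ : ¬ p ∣ ℓ)
    (hpℓ1 : ¬ p ∣ ℓ - 1) (hV : ∀ v : V, p • v = 0) (h : IsParHom q m Φ) {g : SLQ}
    (hg : IsPrincipal q m g) (hc : IsCongZero q (m * ℓ ^ 2) (g 1 0)) :
    Φ (Hd ℓ hℓ0 * g * (Hd ℓ hℓ0)⁻¹) = Φ g := by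
  have hℓne : ℓ ≠ 0 := hℓ.ne_zero
  have hℓA : IsAway q (ℓ : ℚ) := isAway_natCast q ℓ
  obtain ⟨a00, a01, a10, a11⟩ := IsPrincipal.isAwayMat hg
  have hdet := det_eq g
  have hd24 : m * ℓ ^ 2 ∣ m * ℓ ^ 4 := ⟨ℓ ^ 2, by ring⟩
  have hdm2 : m ∣ m * ℓ ^ 2 := Dvd.intro _ rfl
  have hdm4 : m ∣ m * ℓ ^ 4 := Dvd.intro _ rfl
  -- `c² ∈ m ℓ⁴ A`
  have hc2 : IsCongZero q (m * ℓ ^ 4) (g 1 0 ^ 2) := by
    obtain ⟨r, hr, e⟩ := hc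
    refine ⟨m * r ^ 2, (isAway_natCast q m).mul (isAway_pow hr 2), ?_⟩
    rw [e]; push_cast; ring
  set a' : ℚ := g 1 1 * (1 - g 0 1 * g 1 0) with ha'
  have ha'A : IsAway q a' := a11.mul (IsAway.one.sub (a01.mul a10))
  have haa' : g 0 0 * a' - 1 = -(g 0 1 ^ 2 * g 1 0 ^ 2) := by
    rw [ha']; linear_combination (1 - g 0 1 * g 1 0) * hdet
  -- the matrix `E`
  have pL : IsPrincipal q m (Lo (-(g 1 0 * a'))) :=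
    isPrincipal_Lo (cz_neg (cz_mul_right (cz_of_dvd hdm2 hc) ha'A))
  have pU : IsPrincipal q m (U (-(g 0 1 * a'))) :=
    isPrincipal_U (cz_neg (cz_mul_right hg.2.1 ha'A))
  have pE : IsPrincipal q m (Lo (-(g 1 0 * a')) * g * U (-(g 0 1 * a'))) :=
    IsPrincipal.mul (IsPrincipal.mul pL hg) pU
  have hΦE : Φ (Lo (-(g 1 0 * a')) * g * U (-(g 0 1 * a'))) = Φ g := by
    rw [h.mul_unip pU (by simp; norm_num) (IsPrincipal.mul pL hg),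
      h.unip_mul pL (by simp; norm_num) hg]
  have hE00 : (Lo (-(g 1 0 * a')) * g * U (-(g 0 1 * a'))) 0 0 = g 0 0 := by
    rw [mul_00, mul_00, mul_01]; simp
  have hE01 : (Lo (-(g 1 0 * a')) * g * U (-(g 0 1 * a'))) 0 1
      = g 0 1 ^ 3 * g 1 0 ^ 2 := by
    rw [mul_01, mul_00, mul_01]; simp
    linear_combination (-(g 0 1)) * haa'
  have hE10 : (Lo (-(g 1 0 * a')) * g * U (-(g 0 1 * a'))) 1 0
      = g 0 1 ^ 2 * g 1 0 * g 1 0 ^ 2 := by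
    rw [mul_10, mul_10, mul_11]; simp
    linear_combination (-(g 1 0)) * haa'
  have hE01K : IsCongZero q (m * ℓ ^ 4) ((Lo (-(g 1 0 * a')) * g * U (-(g 0 1 * a'))) 0 1) := by
    rw [hE01]; exact cz_mul_left (isAway_pow a01 3) hc2
  have hE10K : IsCongZero q (m * ℓ ^ 4) ((Lo (-(g 1 0 * a')) * g * U (-(g 0 1 * a'))) 1 0) := by
    rw [hE10]; exact cz_mul_left ((isAway_pow a01 2).mul a10) hc2
  -- conjugates
  have pHg : IsPrincipal q m (Hd ℓ hℓ0 * g * (Hd ℓ hℓ0)⁻¹) := isPrincipal_Hd_conj hℓ0 hg hc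
  have hΦHE : Φ (Hd ℓ hℓ0 * (Lo (-(g 1 0 * a')) * g * U (-(g 0 1 * a'))) * (Hd ℓ hℓ0)⁻¹)
      = Φ (Hd ℓ hℓ0 * g * (Hd ℓ hℓ0)⁻¹) := by
    have e : Hd ℓ hℓ0 * (Lo (-(g 1 0 * a')) * g * U (-(g 0 1 * a'))) * (Hd ℓ hℓ0)⁻¹
        = (Hd ℓ hℓ0 * Lo (-(g 1 0 * a')) * (Hd ℓ hℓ0)⁻¹) * (Hd ℓ hℓ0 * g * (Hd ℓ hℓ0)⁻¹)
          * (Hd ℓ hℓ0 * U (-(g 0 1 * a')) * (Hd ℓ hℓ0)⁻¹) := by group
    rw [e, Hd_Lo_conj, Hd_U_conj]
    have pL' : IsPrincipal q m (Lo (-(g 1 0 * a') / (ℓ : ℚ) ^ 2)) := by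
      apply isPrincipal_Lo
      have h1 : IsCongZero q (m * ℓ ^ 2) (-(g 1 0 * a')) := cz_neg (cz_mul_right hc ha'A)
      have := cz_div (q := q) (M := m) (K := ℓ ^ 2) (pow_ne_zero 2 hℓne) h1
      push_cast at this
      exact this
    have pU' : IsPrincipal q m (U ((ℓ : ℚ) ^ 2 * -(g 0 1 * a'))) :=
      isPrincipal_U (cz_mul_left (isAway_pow hℓA 2) (cz_neg (cz_mul_right hg.2.1 ha'A)))
    rw [h.mul_unip pU' (by simp; norm_num) (IsPrincipal.mul pL' pHg),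
      h.unip_mul pL' (by simp; norm_num) pHg]
  rw [← hΦHE, ← hΦE]
  generalize hEdef : Lo (-(g 1 0 * a')) * g * U (-(g 0 1 * a')) = E at pE hE00 hE01K hE10K
  -- powers
  set n := Nat.totient (ℓ ^ 4) with hn
  obtain ⟨hEnA, hEn01, hEn10, hEn00⟩ :=
    pow_diag_mod (IsPrincipal.isAwayMat pE) hE01K hE10K n
  have hℓ4q : Nat.Coprime (ℓ ^ 4) q := Nat.Coprime.pow_left 4 ((Nat.coprime_primes hℓ hq).2 hℓq)
  have han : IsCongZero q (m * ℓ ^ 4) (g 0 0 ^ n - 1) := by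
    refine cz_of_coprime (Nat.Coprime.pow_right 4 ?_) (cz_pow_sub_one hg.1 n) ?_
    · rw [Nat.coprime_comm, Nat.Prime.coprime_iff_not_dvd hℓ]; exact hℓm
    · refine cz_pow_totient_sub_one (pow_pos hℓ.pos 4) hℓ4q a00 ha'A ?_
      rw [haa']
      exact cz_neg (cz_mul_left (isAway_pow a01 2) (cz_of_dvd (Dvd.intro_left m rfl) hc2))
  have hEn00' : IsCongZero q (m * ℓ ^ 4) ((E ^ n) 0 0 - 1) := by
    have : (E ^ n) 0 0 - 1 = ((E ^ n) 0 0 - (E 0 0) ^ n) + (g 0 0 ^ n - 1) := by rw [hE00]; ring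
    rw [this]; exact cz_add hEn00 han
  have hEn11' : IsCongZero q (m * ℓ ^ 4) ((E ^ n) 1 1 - 1) := by
    have hd := det_eq (E ^ n)
    have : (E ^ n) 1 1 - 1 = -((E ^ n) 1 1 * ((E ^ n) 0 0 - 1)) + (E ^ n) 0 1 * (E ^ n) 1 0 := by
      linear_combination hd
    rw [this]
    exact cz_add (cz_neg (cz_mul_left hEnA.2.2.2 hEn00')) (cz_mul_left hEnA.2.1 hEn10)
  have pEn : IsPrincipal q (m * ℓ ^ 4) (E ^ n) := ⟨hEn00', hEn01, hEn10, hEn11'⟩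
  have hdeep := stepB_deep hq hm hmq hℓ hℓq hℓ0 h pEn
  have pHE : IsPrincipal q m (Hd ℓ hℓ0 * E * (Hd ℓ hℓ0)⁻¹) :=
    isPrincipal_Hd_conj hℓ0 pE (cz_of_dvd hd24 hE10K)
  rw [← conj_pow, h.map_pow pHE n, h.map_pow pE n] at hdeep
  -- torsion
  have hnp : Nat.Coprime n p := by
    rw [hn, Nat.totient_prime_pow hℓ (by norm_num : 0 < 4), Nat.coprime_comm]
    refine Nat.Coprime.mul_right (Nat.Coprime.pow_right _ ?_) ?_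
    · exact (Nat.Prime.coprime_iff_not_dvd hp).2 hpℓ
    · exact (Nat.Prime.coprime_iff_not_dvd hp).2 hpℓ1
  have hz : n • (Φ (Hd ℓ hℓ0 * E * (Hd ℓ hℓ0)⁻¹) - Φ E) = 0 := by
    rw [smul_sub, hdeep, sub_self]
  exact sub_eq_zero.1 (eq_zero_of_coprime_smul hnp hz (hV _))

end StepB

end Fermat.Agent.S41.CSP39
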