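/-
S41 / C4 [CSP] (helper39, monolithic spare): STEP C: every par-hom of level `m` on `Γ(m)(ℤ[1/q])` with
values in an `𝔽_p`-space (`p` odd, `p ≠ q`) vanishes.
-/
import Mathlib
import Fermat.Agent.S41.CSP39.StepB

set_option autoImplicit false
set_option linter.unusedSimpArgs false

namespace Fermat.Agent.S41.CSP39

open Matrix Fermat.Agent.S41.Amalgam95 Fermat.Agent.S41.Ihara95

/-! ### number theory: a prime in the class of `a` modulo `c ℤ[1/q]` -/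

theorem exists_prime_top {q M : ℕ} (hq : q.Prime) (hM : 2 ≤ M) (hMq : Nat.Coprime M q)
    {a c : ℚ} (ha : IsCongZero q M (a - 1)) (hc : IsCongZero q M c) (hc0 : c ≠ 0)
    (hbez : ∃ x y : ℚ, IsAway q x ∧ IsAway q y ∧ x * a + y * c = 1) (B : ℕ) :
    ∃ d > B, d.Prime ∧ ∃ t : ℚ, IsAway q t ∧ (d : ℚ) = a + t * c := by
  obtain ⟨n, a₁, c₃, ha₁, hc₃, ha₁0, hcopM, N, u, v, huv⟩ :=
    exists_int_column hq hM hMq ha hc hbez
  have hq0 : q ≠ 0 := hq.ne_zero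
  have hqQ : (q : ℚ) ≠ 0 := by exact_mod_cast hq0
  have hM0 : M ≠ 0 := by omega
  have hMQ : (M : ℚ) ≠ 0 := by exact_mod_cast hM0
  have hc₃0 : c₃ ≠ 0 := by
    rintro rfl
    have : c * (q : ℚ) ^ n = 0 := by rw [hc₃]; simp
    rcases mul_eq_zero.1 this with h | h
    · exact hc0 h
    · exact pow_ne_zero _ hqQ h
  set C := c₃.natAbs with hC
  have hC0 : C ≠ 0 := Int.natAbs_ne_zero.2 hc₃0
  set vq := C.factorization q with hvq
  set c₀ := C / q ^ vq with hc₀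
  have hc₀pos : 0 < c₀ := Nat.ordCompl_pos q hC0
  have hCeq : q ^ vq * c₀ = C := Nat.ordProj_mul_ordCompl_eq_self C q
  have hqc₀ : Nat.Coprime q c₀ := Nat.coprime_ordCompl hq hC0
  have hc₀dvd : c₀ ∣ C := Nat.ordCompl_dvd C q
  -- `a₁` is prime to `c₀`
  have ha₁c₀ : IsCoprime a₁ (c₀ : ℤ) := by
    have hg : Nat.Coprime a₁.natAbs c₀ := by
      have hga : ((Nat.gcd a₁.natAbs c₀ : ℕ) : ℤ) ∣ a₁ :=
        Int.natCast_dvd.2 (Nat.gcd_dvd_left _ _)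
      have hgc : ((Nat.gcd a₁.natAbs c₀ : ℕ) : ℤ) ∣ c₃ :=
        Int.natCast_dvd.2 (dvd_trans (Nat.gcd_dvd_right _ _) hc₀dvd)
      have hgq : ((Nat.gcd a₁.natAbs c₀ : ℕ) : ℤ) ∣ (q : ℤ) ^ N := by
        rw [← huv]
        exact dvd_add (dvd_mul_of_dvd_right hga _) (dvd_mul_of_dvd_right hgc _)
      have hgq' : Nat.gcd a₁.natAbs c₀ ∣ q ^ N := by exact_mod_cast hgq
      have hgcop : Nat.Coprime (Nat.gcd a₁.natAbs c₀) (q ^ N) :=
        Nat.Coprime.pow_right N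
          (Nat.Coprime.coprime_dvd_left (Nat.gcd_dvd_right _ _) hqc₀.symm)
      exact Nat.Coprime.eq_one_of_dvd hgcop hgq'
    rw [Int.isCoprime_iff_gcd_eq_one, Int.gcd_eq_natAbs, Int.natAbs_natCast]
    exact hg
  -- the modulus `Q = M c₀`
  have hQ0 : M * c₀ ≠ 0 := Nat.mul_ne_zero hM0 hc₀pos.ne'
  have ha₁Q : IsCoprime a₁ ((M * c₀ : ℕ) : ℤ) := by
    push_cast; exact hcopM.mul_right ha₁c₀
  have hqnQ : IsCoprime ((q : ℤ) ^ n) ((M * c₀ : ℕ) : ℤ) := by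
    have : Nat.Coprime (q ^ n) (M * c₀) :=
      Nat.Coprime.pow_left n (Nat.Coprime.mul_right hMq.symm hqc₀)
    exact_mod_cast Nat.isCoprime_iff_coprime.2 this
  obtain ⟨u'', v'', hu''v''⟩ := hqnQ
  have hρ : IsCoprime (a₁ * u'') ((M * c₀ : ℕ) : ℤ) :=
    ha₁Q.mul_left ⟨(q : ℤ) ^ n, v'', by linarith⟩
  obtain ⟨d, hdB, hdp, hdρ⟩ := Nat.forall_exists_prime_gt_and_zmodEq B hQ0 hρ
  refine ⟨d, hdB, hdp, ?_⟩
  obtain ⟨z, hz⟩ := Int.modEq_iff_dvd.1 hdρ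
  -- `d q^n - a₁ = Q w`
  have hw : (d : ℤ) * (q : ℤ) ^ n - a₁
      = ((M * c₀ : ℕ) : ℤ) * (-(z * (q : ℤ) ^ n) - a₁ * v'') := by
    linear_combination (-((q : ℤ) ^ n)) * hz + a₁ * hu''v''
  set w : ℤ := -(z * (q : ℤ) ^ n) - a₁ * v'' with hwdef
  have hwQ : (d : ℚ) * (q : ℚ) ^ n - a₁ = ((M : ℚ) * c₀) * w := by exact_mod_cast hw
  have hCQ : ((C : ℕ) : ℚ) = (q : ℚ) ^ vq * c₀ := by exact_mod_cast hCeq.symm
  refine ⟨((d : ℚ) - a) / c, ?_, by field_simp; ring⟩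
  rcases Int.natAbs_eq c₃ with hs | hs
  · refine ⟨vq, w, ?_⟩
    have h1 : c * (q : ℚ) ^ n = (M : ℚ) * ((q : ℚ) ^ vq * c₀) := by
      rw [hc₃, hs, ← hC]; push_cast; rw [hCQ]
    rw [div_mul_eq_mul_div, div_eq_iff hc0]
    apply mul_right_cancel₀ (pow_ne_zero n hqQ)
    linear_combination ((q : ℚ) ^ vq) * hwQ - (q : ℚ) ^ vq * ha₁ - (w : ℚ) * h1
  · refine ⟨vq, -w, ?_⟩
    have h1 : c * (q : ℚ) ^ n = -((M : ℚ) * ((q : ℚ) ^ vq * c₀)) := by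
      rw [hc₃, hs, ← hC]; push_cast; rw [hCQ]; ring
    rw [div_mul_eq_mul_div, div_eq_iff hc0]
    apply mul_right_cancel₀ (pow_ne_zero n hqQ)
    push_cast
    linear_combination ((q : ℚ) ^ vq) * hwQ - (q : ℚ) ^ vq * ha₁ + (w : ℚ) * h1

/-! ### matrices with a prescribed first column -/

variable {q m : ℕ}

/-- **(EX-COL)** every unimodular column `≡ (1,0)` mod `m` is the first column of an element of
`Γ(m)(ℤ[1/q])`. -/
lemma exists_principal_col {a c x y : ℚ} (ha : IsCongZero q m (a - 1)) (hc : IsCongZero q m c)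
    (hx : IsAway q x) (hy : IsAway q y) (hxy : x * a + y * c = 1) :
    ∃ g : SLQ, IsPrincipal q m g ∧ g 0 0 = a ∧ g 1 0 = c := by
  refine ⟨mkQ a (y * (a - 1)) c (x + y * c) (by linear_combination hxy), ⟨?_, ?_, ?_, ?_⟩, rfl, rfl⟩
  · simpa using ha
  · simpa using cz_mul_left hy ha
  · simpa using hc
  · have : (mkQ a (y * (a - 1)) c (x + y * c) (by linear_combination hxy)) 1 1 - 1
        = -(x * (a - 1)) := by
      rw [mkQ_11]; linear_combination hxy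
    rw [this]; exact cz_neg (cz_mul_left hx ha)

section
variable {V : Type*} [AddCommGroup V] {Φ : SLQ → V}

/-- **(COL-mod)** the value only depends on the first column `(a, c)` with `c` taken modulo `m a`. -/
lemma IsParHom.col_mod (h : IsParHom q m Φ) {g g' : SLQ} (hg : IsPrincipal q m g)
    (hg' : IsPrincipal q m g') (h0 : g' 0 0 = g 0 0) {s : ℚ} (hs : IsAway q s)
    (h1 : g' 1 0 = g 1 0 + m * s * g 0 0) : Φ g' = Φ g := by
  have pL : IsPrincipal q m (Lo (m * s)) := isPrincipal_Lo (cz_M_mul hs)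
  rw [← h.unip_mul pL (by simp; norm_num) hg]
  refine h.col (IsPrincipal.mul pL hg) hg' ?_ ?_
  · rw [h0, mul_00]; simp
  · rw [h1, mul_10]; simp; ring

/-- **(C3)** matrices with first column `(1 + j m, ± m)` are killed. -/
lemma IsParHom.map_col_unip (h : IsParHom q m Φ) {g : SLQ} (hg : IsPrincipal q m g) (j : ℤ)
    (ε : ℤ) (h0 : g 0 0 = 1 + j * ε * m) (h1 : g 1 0 = ε * m) : Φ g = 0 := by
  have hU : IsAwayMat q (U (j : ℚ)) := isAwayMat_U (IsAway.of_int j)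
  have pL : IsPrincipal q m (Lo ((ε : ℚ) * m)) :=
    isPrincipal_Lo (cz_mul_left (IsAway.of_int ε) cz_self)
  have pn : IsPrincipal q m (U (j : ℚ) * Lo ((ε : ℚ) * m) * (U (j : ℚ))⁻¹) :=
    IsPrincipal.conj hU pL
  have hn : Φ (U (j : ℚ) * Lo ((ε : ℚ) * m) * (U (j : ℚ))⁻¹) = 0 :=
    h.unip _ pn (by rw [trace_conj]; simp; norm_num)
  rw [← hn]
  refine h.col pn hg ?_ ?_
  · rw [h0, conj_00]; simp; ring
  · rw [h1, conj_10]; simp

/-- **(TR)** `Φ(gᵀ) = -Φ(g)`, where `gᵀ = w g⁻¹ w⁻¹`. -/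
lemma IsParHom.map_transpose (hq : q.Prime) (hm : 2 ≤ m) (hmq : Nat.Coprime m q)
    (h : IsParHom q m Φ) {g : SLQ} (hg : IsPrincipal q m g) :
    IsPrincipal q m (Wm * g⁻¹ * Wm⁻¹) ∧ (Wm * g⁻¹ * Wm⁻¹) 0 0 = g 0 0 ∧
      (Wm * g⁻¹ * Wm⁻¹) 1 0 = g 0 1 ∧ Φ (Wm * g⁻¹ * Wm⁻¹) = -Φ g := by
  refine ⟨IsPrincipal.conj isAwayMat_Wm (IsPrincipal.inv hg), ?_, ?_, ?_⟩
  · rw [conj_00]; simp [inv_00, inv_01, inv_10, inv_11]
  · rw [conj_10]; simp [inv_00, inv_01, inv_10, inv_11]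
  · rw [stepA_W hq hm hmq h (IsPrincipal.inv hg), h.map_inv hg]

end

end Fermat.Agent.S41.CSP39
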