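/-
S41 / C4 [CSP] (helper39, monolithic spare): STEP C, second half: the square-class argument and the
vanishing theorem.
-/
import Mathlib
import Fermat.Agent.S41.CSP39.StepC

set_option autoImplicit false
set_option linter.unusedSimpArgs false

namespace Fermat.Agent.S41.CSP39

open Matrix Fermat.Agent.S41.Amalgam95 Fermat.Agent.S41.Ihara95

variable {q m p : ℕ} {V : Type*} [AddCommGroup V] {Φ : SLQ → V}

/-- a unipotent element of `Γ(m)` with first column `(1 + j ε m, ε m)`. -/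
lemma exists_unip_col (q m : ℕ) (j ε : ℤ) :
    ∃ g : SLQ, IsPrincipal q m g ∧ g 0 0 = 1 + j * ε * m ∧ g 1 0 = ε * m ∧
      g 0 0 + g 1 1 = 2 := by
  have hU : IsAwayMat q (U (j : ℚ)) := isAwayMat_U (IsAway.of_int j)
  have pL : IsPrincipal q m (Lo ((ε : ℚ) * m)) :=
    isPrincipal_Lo (cz_mul_left (IsAway.of_int ε) cz_self)
  refine ⟨U (j : ℚ) * Lo ((ε : ℚ) * m) * (U (j : ℚ))⁻¹, IsPrincipal.conj hU pL, ?_, ?_, ?_⟩
  · rw [conj_00]; simp; ring
  · rw [conj_10]; simp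
  · rw [trace_conj]; simp; norm_num

/-- **(SQ)**: for a prime `d`, the value on a matrix with first column `(d, c)` does not change
when `c` is multiplied by the square of an integer prime to `d` (modulo `m d`). -/
theorem IsParHom.map_sq_mul (hq : q.Prime) (hp : p.Prime) (hp2 : p ≠ 2) (hm : 2 ≤ m)
    (hmq : Nat.Coprime m q) (hV : ∀ v : V, p • v = 0) (h : IsParHom q m Φ)
    {d : ℕ} (hd : d.Prime) (hdp : d ≠ p) {g g' : SLQ} (hg : IsPrincipal q m g)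
    (hg' : IsPrincipal q m g') (h0 : g 0 0 = d) (h0' : g' 0 0 = d) {y : ℤ}
    (hy : IsCoprime y (d : ℤ)) (h1 : IsCongZero q (m * d) (g' 1 0 - g 1 0 * y ^ 2)) :
    Φ g' = Φ g := by
  have h2p : IsCoprime (2 : ℤ) (p : ℤ) := by
    have : Nat.Coprime 2 p := (Nat.coprime_primes Nat.prime_two hp).2 (Ne.symm hp2)
    exact_mod_cast Nat.isCoprime_iff_coprime.2 this
  obtain ⟨ℓ, hℓB, hℓ, hℓy, hℓ2⟩ := exists_prime_two_moduli (m + q + d + p + 2) hd.ne_zero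
    hp.ne_zero ((Nat.coprime_primes hd hp).2 hdp) hy h2p
  have hℓq : ℓ ≠ q := by omega
  have hℓd : ℓ ≠ d := by omega
  have hℓm : ¬ ℓ ∣ m := fun hdvd => by
    have := Nat.le_of_dvd (by omega) hdvd
    omega
  have hℓ0 : (ℓ : ℚ) ≠ 0 := by exact_mod_cast hℓ.ne_zero
  have hℓA : IsAway q (ℓ : ℚ) := isAway_natCast q ℓ
  obtain ⟨k2, hk2⟩ := Int.modEq_iff_dvd.1 hℓ2
  have hpℓ : ¬ p ∣ ℓ := fun hdvd => by
    obtain ⟨k, hk⟩ := hdvd
    have : (p : ℤ) ∣ 2 := ⟨k2 + k, by rw [mul_add, ← hk2]; push_cast [hk]; ring⟩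
    have h2 : p ∣ 2 := by exact_mod_cast this
    have := Nat.le_of_dvd (by norm_num) h2
    have := hp.two_le
    omega
  have hpℓ1 : ¬ p ∣ ℓ - 1 := fun hdvd => by
    obtain ⟨k, hk⟩ := hdvd
    have hℓ1 : 1 ≤ ℓ := hℓ.pos
    have hk' : (ℓ : ℤ) - 1 = p * k := by
      have : ((ℓ - 1 : ℕ) : ℤ) = (p : ℤ) * k := by exact_mod_cast hk
      rw [← this]; push_cast [Nat.cast_sub hℓ1]; ring
    have : (p : ℤ) ∣ 1 := ⟨k2 + k, by rw [mul_add, ← hk2, ← hk']; ring⟩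
    have h1' : p ∣ 1 := by exact_mod_cast this
    have := Nat.le_of_dvd (by norm_num) h1'
    have := hp.two_le
    omega
  -- Bezout for `(d, ℓ²)`
  have hdℓ : IsCoprime (d : ℤ) ((ℓ : ℤ) ^ 2) := by
    have : Nat.Coprime d (ℓ ^ 2) :=
      Nat.Coprime.pow_right 2 ((Nat.coprime_primes hd hℓ).2 (Ne.symm hℓd))
    exact_mod_cast Nat.isCoprime_iff_coprime.2 this
  obtain ⟨α, β, hαβ⟩ := hdℓ
  have hαβQ : (α : ℚ) * d + β * (ℓ : ℚ) ^ 2 = 1 := by exact_mod_cast hαβ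
  obtain ⟨a00, a01, a10, a11⟩ := IsPrincipal.isAwayMat hg
  have hdet := det_eq g
  have ha1 : IsCongZero q m ((d : ℚ) - 1) := h0 ▸ hg.1
  obtain ⟨g'', pg'', h0'', h1''⟩ := exists_principal_col (q := q) (m := m)
    (a := (d : ℚ)) (c := g 1 0 * (ℓ : ℚ) ^ 2) (x := g 1 1 - g 0 1 * g 1 0 * α)
    (y := -(g 0 1 * β)) ha1 (cz_mul_right hg.2.2.1 (isAway_pow hℓA 2))
    (a11.sub ((a01.mul a10).mul (IsAway.of_int α))) (a01.mul (IsAway.of_int β)).neg
    (by rw [h0] at hdet; linear_combination hdet - (g 0 1 * g 1 0) * hαβQ)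
  -- STEP B for `g''`
  have hc'' : IsCongZero q (m * ℓ ^ 2) (g'' 1 0) := by
    rw [h1'']
    have := cz_mul_mul (K := ℓ ^ 2) hg.2.2.1
    push_cast at this
    have e : g 1 0 * (ℓ : ℚ) ^ 2 = (ℓ : ℚ) ^ 2 * g 1 0 := by ring
    rw [e]; exact this
  have hB := stepB hq hm hmq hℓ hℓq hℓm hℓ0 hp hpℓ hpℓ1 hV h pg'' hc''
  have pHg'' := isPrincipal_Hd_conj hℓ0 pg'' hc''
  have hcol : Φ (Hd ℓ hℓ0 * g'' * (Hd ℓ hℓ0)⁻¹) = Φ g := by
    refine h.col hg pHg'' ?_ ?_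
    · rw [Hd_conj_00, h0'', h0]
    · rw [Hd_conj_10, h1'']; field_simp
  -- `g'` versus `g''`
  obtain ⟨kd, hkd⟩ := Int.modEq_iff_dvd.1 hℓy
  have hmd : IsCongZero q (m * d) (g' 1 0 - g'' 1 0) := by
    have e : g' 1 0 - g'' 1 0 = (g' 1 0 - g 1 0 * y ^ 2)
        + g 1 0 * (((d : ℤ) * (kd * (y + ℓ)) : ℤ) : ℚ) := by
      rw [h1'']
      have : (((d : ℤ) * (kd * (y + ℓ)) : ℤ) : ℚ) = (y : ℚ) ^ 2 - (ℓ : ℚ) ^ 2 := by
        have : (d : ℤ) * (kd * (y + ℓ)) = y ^ 2 - (ℓ : ℤ) ^ 2 := by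
          linear_combination (-(y + ℓ)) * hkd
        exact_mod_cast this
      rw [this]; ring
    rw [e]
    refine cz_add h1 ?_
    obtain ⟨r, hr, hcr⟩ := hg.2.2.1
    refine ⟨r * (kd * (y + ℓ) : ℤ), hr.mul (IsAway.of_int _), ?_⟩
    rw [hcr]; push_cast; ring
  obtain ⟨s, hs, hse⟩ := hmd
  have hfin : Φ g' = Φ g'' :=
    h.col_mod pg'' hg' (by rw [h0', h0'']) hs (by
      rw [h0'']
      have : g' 1 0 = g'' 1 0 + ((m * d : ℕ) : ℚ) * s := by linear_combination hse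
      rw [this]; push_cast; ring)
  rw [hfin, ← hB, hcol]

/-- **(C-core)**: the value on a matrix whose upper left entry is a prime `d` vanishes. -/
theorem IsParHom.eq_zero_of_prime_top (hq : q.Prime) (hp : p.Prime) (hp2 : p ≠ 2) (hm : 2 ≤ m)
    (hmq : Nat.Coprime m q) (hV : ∀ v : V, p • v = 0) (h : IsParHom q m Φ)
    {d : ℕ} (hd : d.Prime) (hdp : d ≠ p) (hdq : d ≠ q) {g : SLQ} (hg : IsPrincipal q m g)
    (h0 : g 0 0 = d) : Φ g = 0 := by
  haveI : Fact d.Prime := ⟨hd⟩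
  have hdq' : Nat.Coprime d q := (Nat.coprime_primes hd hq).2 hdq
  have h2p : Nat.Coprime 2 p := (Nat.coprime_primes Nat.prime_two hp).2 (Ne.symm hp2)
  -- `d = 1 + m j`
  have ha1 : IsCongZero q m (((d : ℤ) - 1 : ℤ) : ℚ) := by
    have := hg.1; rw [h0] at this; push_cast; exact this
  obtain ⟨j, hj⟩ := dvd_of_cz_intCast hmq _ ha1
  have hjQ : (d : ℚ) = 1 + (j : ℚ) * 1 * m := by
    have : ((d : ℤ) : ℚ) - 1 = (m : ℚ) * j := by exact_mod_cast hj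
    push_cast at this; linear_combination this
  have hmd : IsCoprime (m : ℤ) (d : ℤ) := ⟨-j, 1, by linarith⟩
  -- integer representatives
  obtain ⟨r, hr, hcr⟩ := hg.2.2.1
  obtain ⟨rb, hrb, hbr⟩ := hg.2.1
  obtain ⟨a00, a01, a10, a11⟩ := IsPrincipal.isAwayMat hg
  obtain ⟨z, hz⟩ := exists_int_cz_sub hdq' hr
  obtain ⟨zb, hzb⟩ := exists_int_cz_sub hdq' hrb
  have hdet := det_eq g
  have hF : (d : ℤ) ∣ (m : ℤ) ^ 2 * z * zb + 1 := by
    apply dvd_of_cz_intCast hdq'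
    have e : (((m : ℤ) ^ 2 * z * zb + 1 : ℤ) : ℚ)
        = (d : ℚ) * g 1 1 - (m : ℚ) ^ 2 * (r * rb - (z : ℚ) * zb) := by
      push_cast
      rw [h0, hcr, hbr] at hdet
      linear_combination (-1 : ℚ) * hdet
    rw [e]
    exact cz_sub (cz_M_mul a11) (cz_mul_left (isAway_pow (isAway_natCast q m) 2)
      (cz_mul_sub_mul hr (IsAway.of_int zb) hz hzb))
  obtain ⟨wF, hwF⟩ := hF
  have hzd : IsCoprime z (d : ℤ) := ⟨-((m : ℤ) ^ 2 * zb), wF, by linarith⟩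
  have hz0 : ((z : ℤ) : ZMod d) ≠ 0 := by
    rw [Ne, ZMod.intCast_zmod_eq_zero_iff_dvd]
    intro hdvd
    obtain ⟨α', β', hab⟩ := hzd
    have h1 : (d : ℤ) ∣ 1 := by
      rw [← hab]; exact dvd_add (Dvd.dvd.mul_left hdvd α') (dvd_mul_left _ β')
    exact hd.one_lt.ne' (by exact_mod_cast Int.eq_one_of_dvd_one (by positivity) h1)
  by_cases hsq : IsSquare (-1 : ZMod d)
  · -- case I: `-1` is a square mod `d`
    obtain ⟨ι, hι⟩ := hsq
    obtain ⟨i₀, rfl⟩ := ZMod.intCast_surjective ι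
    have hi : (d : ℤ) ∣ i₀ ^ 2 + 1 := by
      rw [← ZMod.intCast_zmod_eq_zero_iff_dvd]; push_cast; rw [pow_two, ← hι]; ring
    obtain ⟨ki, hki⟩ := hi
    obtain ⟨w, w', hw⟩ : IsCoprime ((m : ℤ) * z) (d : ℤ) := hmd.mul_left hzd
    have hyd : IsCoprime (i₀ * w) (d : ℤ) :=
      IsCoprime.mul_left ⟨-i₀, ki, by linarith⟩ ⟨(m : ℤ) * z, w', by linarith⟩
    obtain ⟨pT, hT0, hT1, hTΦ⟩ := h.map_transpose hq hm hmq hg
    -- `d ∣ zb - z (i₀ w)²`
    have hkey : (d : ℤ) ∣ zb - z * (i₀ * w) ^ 2 := by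
      have hcop : IsCoprime (d : ℤ) ((m : ℤ) ^ 2 * z) :=
        (hmd.pow_left.mul_left hzd).symm
      refine hcop.dvd_of_dvd_mul_left ⟨wF - (-(w' * (m * z * w + 1)) * i₀ ^ 2 + ki), ?_⟩
      linear_combination hwF - (i₀ ^ 2 * (m * z * w + 1)) * hw - hki
    obtain ⟨kk, hkk⟩ := hkey
    have h1 : IsCongZero q (m * d) ((Wm * g⁻¹ * Wm⁻¹) 1 0 - g 1 0 * ((i₀ * w : ℤ) : ℚ) ^ 2) := by
      rw [hT1, hbr, hcr]
      have e : (m : ℚ) * rb - (m : ℚ) * r * ((i₀ * w : ℤ) : ℚ) ^ 2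
          = (m : ℚ) * ((rb - zb) + ((d : ℚ) * kk) - (r - z) * ((i₀ * w : ℤ) : ℚ) ^ 2) := by
        have : ((zb - z * (i₀ * w) ^ 2 : ℤ) : ℚ) = (d : ℚ) * kk := by exact_mod_cast hkk
        push_cast at this ⊢
        linear_combination (m : ℚ) * this
      rw [e]
      have hin : IsCongZero q d ((rb - zb) + ((d : ℚ) * kk)
          - (r - z) * ((i₀ * w : ℤ) : ℚ) ^ 2) :=
        cz_sub (cz_add hzb (cz_M_mul (IsAway.of_int kk)))
          (cz_mul_right hz (isAway_pow (IsAway.of_int _) 2))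
      have := cz_mul_mul (K := m) hin
      rw [Nat.mul_comm] at this
      exact this
    have hSQ := h.map_sq_mul hq hp hp2 hm hmq hV hd hdp hg pT h0 (by rw [hT0, h0]) hyd
      (by exact_mod_cast h1)
    rw [hTΦ] at hSQ
    have h2 : (2 : ℕ) • Φ g = 0 := by
      rw [two_nsmul]
      nth_rewrite 1 [← neg_neg (Φ g)]
      rw [hSQ]; simp
    exact eq_zero_of_coprime_smul h2p h2 (hV _)
  · -- case II: `-1` is not a square mod `d`
    have hχ : quadraticChar (ZMod d) (-1) = -1 := quadraticChar_neg_one_iff_not_isSquare.2 hsq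
    -- in both sub-cases: `ε z ≡ y₀²`
    have hex : ∃ (ε y₀ : ℤ), (ε = 1 ∨ ε = -1) ∧ (d : ℤ) ∣ ε * z - y₀ ^ 2 := by
      rcases quadraticChar_dichotomy hz0 with h1 | h1
      · obtain ⟨υ, hυ⟩ := (quadraticChar_one_iff_isSquare hz0).1 h1
        obtain ⟨y₀, rfl⟩ := ZMod.intCast_surjective υ
        refine ⟨1, y₀, Or.inl rfl, ?_⟩
        rw [← ZMod.intCast_zmod_eq_zero_iff_dvd]; push_cast; rw [hυ]; ring
      · have hnz0 : -((z : ℤ) : ZMod d) ≠ 0 := neg_ne_zero.2 hz0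
        have h2 : quadraticChar (ZMod d) (-((z : ℤ) : ZMod d)) = 1 := by
          have : -((z : ℤ) : ZMod d) = (-1) * ((z : ℤ) : ZMod d) := by ring
          rw [this, _root_.map_mul (quadraticChar (ZMod d)), hχ, h1]; norm_num
        obtain ⟨υ, hυ⟩ := (quadraticChar_one_iff_isSquare hnz0).1 h2
        obtain ⟨y₀, rfl⟩ := ZMod.intCast_surjective υ
        refine ⟨-1, y₀, Or.inr rfl, ?_⟩
        rw [← ZMod.intCast_zmod_eq_zero_iff_dvd]; push_cast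
        have e : ((y₀ : ℤ) : ZMod d) ^ 2 = -((z : ℤ) : ZMod d) := by rw [pow_two, ← hυ]
        rw [e]; ring
    obtain ⟨ε, y₀, hε, ky, hky⟩ := hex
    have hε2 : ε * ε = 1 := by rcases hε with rfl | rfl <;> norm_num
    have hy₀ : IsCoprime y₀ (d : ℤ) := by
      have h1 : IsCoprime (y₀ ^ 2) (d : ℤ) := by
        have : y₀ ^ 2 = ε * z + (d : ℤ) * (-ky) := by linarith
        rw [this]
        refine IsCoprime.add_mul_left_left (IsCoprime.mul_left ?_ hzd) _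
        exact ⟨ε, 0, by rw [zero_mul, add_zero]; exact hε2⟩
      exact IsCoprime.of_mul_left_left (by rwa [pow_two] at h1)
    obtain ⟨g₀, pg₀, h00, h01, htr⟩ := exists_unip_col q m (ε * j) ε
    have hΦg₀ : Φ g₀ = 0 := h.unip g₀ pg₀ htr
    have h00' : g₀ 0 0 = d := by
      rw [h00, hjQ]
      have : ((ε * ε : ℤ) : ℚ) = 1 := by exact_mod_cast hε2
      push_cast at this ⊢
      linear_combination ((j : ℚ) * m) * this
    have h1 : IsCongZero q (m * d) (g 1 0 - g₀ 1 0 * (y₀ : ℚ) ^ 2) := by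
      rw [h01, hcr]
      have e : (m : ℚ) * r - (ε : ℚ) * m * (y₀ : ℚ) ^ 2
          = (m : ℚ) * ((r - z) + (ε : ℚ) * ((d : ℚ) * ky)) := by
        have h3 : ((ε * z - y₀ ^ 2 : ℤ) : ℚ) = (d : ℚ) * ky := by exact_mod_cast hky
        have h4 : ((ε * ε : ℤ) : ℚ) = 1 := by exact_mod_cast hε2
        push_cast at h3 h4
        linear_combination ((m : ℚ) * ε) * h3 - ((m : ℚ) * z) * h4
      rw [e]
      have hin : IsCongZero q d ((r - z) + (ε : ℚ) * ((d : ℚ) * ky)) :=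
        cz_add hz (cz_mul_left (IsAway.of_int ε) (cz_M_mul (IsAway.of_int ky)))
      have := cz_mul_mul (K := m) hin
      rw [Nat.mul_comm] at this
      exact this
    rw [h.map_sq_mul hq hp hp2 hm hmq hV hd hdp pg₀ hg h00' h0 hy₀ h1, hΦg₀]

end Fermat.Agent.S41.CSP39
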