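/-
S41 / C4 [CSP] (helper39, monolithic spare): the vanishing theorem for par-homs and the plug
`Ihara95.CSPPlug N q p` (with `M = N p`).
-/
import Mathlib
import Fermat.Agent.S41.CSP39.StepC2

set_option autoImplicit false
set_option linter.unusedSimpArgs false

namespace Fermat.Agent.S41.CSP39

open Matrix Fermat.Agent.S41.Amalgam95 Fermat.Agent.S41.Ihara95

section Theorem
variable {q m p : ℕ} {V : Type*} [AddCommGroup V] {Φ : SLQ → V}

/-- **THEOREM** (helper11): for `p` an odd prime, `q` a prime, `m ≥ 2` prime to `q`, every par-hom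
of level `m` on `Γ(m)(ℤ[1/q])` with values in an `𝔽_p`-space is zero. -/
theorem parHom_eq_zero (hq : q.Prime) (hp : p.Prime) (hp2 : p ≠ 2) (hm : 2 ≤ m)
    (hmq : Nat.Coprime m q) (hV : ∀ v : V, p • v = 0) (h : IsParHom q m Φ) :
    ∀ {g : SLQ}, IsPrincipal q m g → Φ g = 0 := by
  -- the case of a nonzero lower left entry
  have main : ∀ {g : SLQ}, IsPrincipal q m g → g 1 0 ≠ 0 → Φ g = 0 := by
    intro g hg hc0
    obtain ⟨d, hdB, hd, t, ht, hdt⟩ := exists_prime_top hq hm hmq hg.1 hg.2.2.1 hc0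
      (col_bezout (IsPrincipal.isAwayMat hg)) (p + q + 2)
    have hUt := isAwayMat_U (q := q) ht
    have pg' := IsPrincipal.conj hUt hg
    rw [← stepA_U hq hm hmq h hg ht]
    refine h.eq_zero_of_prime_top hq hp hp2 hm hmq hV hd (by omega) (by omega) pg' ?_
    rw [conj_00, hdt]; simp
  intro g hg
  by_cases hc0 : g 1 0 = 0
  · have pL : IsPrincipal q m (Lo m) := isPrincipal_Lo cz_self
    have hdet := det_eq g
    have ha0 : g 0 0 ≠ 0 := by
      intro h0; rw [h0, hc0] at hdet; norm_num at hdet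
    have hm0 : (m : ℚ) ≠ 0 := by
      have : m ≠ 0 := by omega
      exact_mod_cast this
    have := main (IsPrincipal.mul pL hg) (by
      rw [mul_10]; simp; rw [hc0, add_zero]; exact mul_ne_zero hm0 ha0)
    rwa [h.unip_mul pL (by simp; norm_num) hg] at this
  · exact main hg hc0

end Theorem

/-! ### the one-parameter group through a unipotent element -/

/-- `1 + s (g - 1)` for a unipotent `g`. -/
def unipPow (g : SLQ) (hg : g 0 0 + g 1 1 = 2) (s : ℚ) : SLQ :=
  mkQ (1 + s * (g 0 0 - 1)) (s * g 0 1) (s * g 1 0) (1 + s * (g 1 1 - 1)) (by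
    have hdet := det_eq g
    have h1 : g 1 1 = 2 - g 0 0 := by linarith
    rw [h1] at hdet ⊢
    linear_combination (s ^ 2) * hdet)

lemma unipPow_one (g : SLQ) (hg : g 0 0 + g 1 1 = 2) : unipPow g hg 1 = g := by
  apply ext_entries <;> simp [unipPow]

lemma unipPow_zero (g : SLQ) (hg : g 0 0 + g 1 1 = 2) : unipPow g hg 0 = 1 := by
  apply ext_entries <;> simp [unipPow]

lemma unipPow_mul (g : SLQ) (hg : g 0 0 + g 1 1 = 2) (s s' : ℚ) :
    unipPow g hg s * unipPow g hg s' = unipPow g hg (s + s') := by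
  have hdet := det_eq g
  have h1 : g 1 1 = 2 - g 0 0 := by linarith
  apply ext_entries
  · rw [mul_00]; simp only [unipPow, mkQ_00, mkQ_01, mkQ_10, mkQ_11]
    rw [h1] at hdet; linear_combination (-(s * s')) * hdet
  · rw [mul_01]; simp only [unipPow, mkQ_00, mkQ_01, mkQ_10, mkQ_11]
    rw [h1]; ring
  · rw [mul_10]; simp only [unipPow, mkQ_00, mkQ_01, mkQ_10, mkQ_11]
    rw [h1]; ring
  · rw [mul_11]; simp only [unipPow, mkQ_00, mkQ_01, mkQ_10, mkQ_11]
    rw [h1] at hdet ⊢; linear_combination (-(s * s')) * hdet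

lemma unipPow_pow (g : SLQ) (hg : g 0 0 + g 1 1 = 2) (s : ℚ) (k : ℕ) :
    (unipPow g hg s) ^ k = unipPow g hg (k * s) := by
  induction k with
  | zero => simp [unipPow_zero]
  | succ k ih => rw [pow_succ, ih, unipPow_mul]; congr 1; push_cast; ring

/-! ### the plug -/

lemma mem_DeltaQ_of_isPrincipal {N q K : ℕ} {g : SLQ} (hg : IsPrincipal q (N * K) g) :
    g ∈ DeltaQ N q := by
  obtain ⟨a00, a01, a10, a11⟩ := IsPrincipal.isAwayMat hg
  obtain ⟨r, hr, e⟩ := hg.2.2.1
  exact ⟨a00, a01, ⟨K * r, (isAway_natCast q K).mul hr, by rw [e]; push_cast; ring⟩, a11⟩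

/-- **the plug**: every homomorphism `Γ₀(N)[1/q] → ℤ/p` kills `Γ(N p)(ℤ[1/q])`. -/
theorem cspPlug (N q p : ℕ) [hqf : Fact q.Prime] (hp : p.Prime) (hp2 : p ≠ 2) (hqp : q ≠ p)
    (hqN : ¬ q ∣ N) (hN : 0 < N) : CSPPlug N q p := by
  intro Φ
  classical
  have hq : q.Prime := hqf.out
  have hp0 : p ≠ 0 := hp.ne_zero
  have hpQ : (p : ℚ) ≠ 0 := by exact_mod_cast hp0
  have hm : 2 ≤ N * p := by
    have := hp.two_le
    nlinarith
  have hmq : Nat.Coprime (N * p) q :=
    Nat.Coprime.mul_left ((Nat.Prime.coprime_iff_not_dvd hq).2 hqN).symm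
      ((Nat.coprime_primes hp hq).2 (Ne.symm hqp))
  refine ⟨N * p, by omega, hmq, ?_⟩
  -- the function on `SL(2,ℚ)`
  let Ψ : SLQ → ZMod p := fun g =>
    if hg : g ∈ DeltaQ N q then Multiplicative.toAdd (Φ ⟨g, hg⟩) else 0
  have hΨ : ∀ (g : SLQ) (hg : g ∈ DeltaQ N q), Ψ g = Multiplicative.toAdd (Φ ⟨g, hg⟩) :=
    fun g hg => dif_pos hg
  have hV : ∀ v : ZMod p, p • v = 0 := fun v => by
    rw [nsmul_eq_mul, ZMod.natCast_self, zero_mul]
  have hPar : IsParHom q (N * p) Ψ := by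
    refine ⟨?_, ?_⟩
    · intro g g' hg hg'
      have mg := mem_DeltaQ_of_isPrincipal hg
      have mg' := mem_DeltaQ_of_isPrincipal hg'
      rw [hΨ g mg, hΨ g' mg', hΨ (g * g') (mul_mem mg mg')]
      have : (⟨g * g', mul_mem mg mg'⟩ : ↥(DeltaQ N q)) = ⟨g, mg⟩ * ⟨g', mg'⟩ := rfl
      rw [this, map_mul, toAdd_mul]
    · intro g hg htr
      have mg := mem_DeltaQ_of_isPrincipal hg
      rw [hΨ g mg]
      -- `g = g₁ ^ p`
      have m1 : unipPow g htr (1 / p) ∈ DeltaQ N q := by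
        obtain ⟨r00, hr00, e00⟩ := hg.1
        obtain ⟨r01, hr01, e01⟩ := hg.2.1
        obtain ⟨r10, hr10, e10⟩ := hg.2.2.1
        obtain ⟨r11, hr11, e11⟩ := hg.2.2.2
        refine ⟨?_, ?_, ⟨r10, hr10, ?_⟩, ?_⟩
        · have : (unipPow g htr (1 / p)) 0 0 = 1 + N * r00 := by
            simp only [unipPow, mkQ_00]; rw [e00]; push_cast; field_simp
          rw [this]; exact IsAway.one.add ((isAway_natCast q N).mul hr00)
        · have : (unipPow g htr (1 / p)) 0 1 = N * r01 := by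
            simp only [unipPow, mkQ_01]; rw [e01]; push_cast; field_simp
          rw [this]; exact (isAway_natCast q N).mul hr01
        · simp only [unipPow, mkQ_10]; rw [e10]; push_cast; field_simp
        · have : (unipPow g htr (1 / p)) 1 1 = 1 + N * r11 := by
            simp only [unipPow, mkQ_11]; rw [e11]; push_cast; field_simp
          rw [this]; exact IsAway.one.add ((isAway_natCast q N).mul hr11)
      have hpow : (⟨g, mg⟩ : ↥(DeltaQ N q)) = ⟨unipPow g htr (1 / p), m1⟩ ^ p := by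
        apply Subtype.ext
        rw [SubgroupClass.coe_pow]
        show g = (unipPow g htr (1 / p)) ^ p
        rw [unipPow_pow]
        have : (p : ℚ) * (1 / p) = 1 := by field_simp
        rw [this, unipPow_one]
      rw [hpow, map_pow, toAdd_pow]
      exact hV _
  intro g hg
  have h0 := parHom_eq_zero hq hp hp2 hm hmq hV hPar hg
  rw [hΨ (g : SLQ) g.2] at h0
  have : (⟨(g : SLQ), g.2⟩ : ↥(DeltaQ N q)) = g := rfl
  rw [this] at h0
  exact (toAdd_eq_zero).1 h0

end Fermat.Agent.S41.CSP39
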